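import Fermat.Agent.S52.Klein.Coprime

/-!
# S52, Klein forms: surjectivity of `(u,v) ↦ (kH u v, kT u v)` over an algebraically closed field (K2)
-/

set_option autoImplicit false

open Polynomial

namespace Fermat.Agent.S52

variable {k : Type*} [Field k]

/-- the degree 12 polynomial `T² kHa(X,1)³ - H³ kTa(X,1)²`. -/
noncomputable def ratioPoly (H T : k) : k[X] :=
  C (T ^ 2) * (X ^ 4 - 228 * X ^ 3 + 494 * X ^ 2 + 228 * X + 1) ^ 3
    - C (H ^ 3) * (X ^ 6 + 522 * X ^ 5 - 10005 * X ^ 4 - 10005 * X ^ 2 - 522 * X + 1) ^ 2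

theorem eval_ratioPoly (H T s : k) :
    (ratioPoly H T).eval s = T ^ 2 * kHa s 1 ^ 3 - H ^ 3 * kTa s 1 ^ 2 := by
  unfold ratioPoly kHa kTa
  simp only [eval_sub, eval_mul, eval_C, eval_pow, eval_add, eval_X, eval_one, eval_ofNat]
  ring

theorem coeff_ratioPoly (H T : k) : (ratioPoly H T).coeff 12 = T ^ 2 - H ^ 3 := by
  unfold ratioPoly
  compute_degree!

theorem degree_ratioPoly_ne_zero (H T : k) (h : H ^ 3 - T ^ 2 ≠ 0) :
    (ratioPoly H T).degree ≠ 0 := by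
  intro h0
  have h1 : (ratioPoly H T).coeff 12 = 0 :=
    coeff_eq_zero_of_degree_lt (by rw [h0]; exact_mod_cast (by norm_num : (0 : ℕ) < 12))
  rw [coeff_ratioPoly] at h1
  exact h (by linear_combination -h1)

variable [IsAlgClosed k]

/-- surjectivity in the variables `a`, `b`. -/
theorem exists_ab (h30 : (30 : k) ≠ 0) (H T : k) (h : H ^ 3 - T ^ 2 ≠ 0) :
    ∃ a b : k, kHa a b = H ∧ kTa a b = T := by
  obtain ⟨s, hs⟩ := IsAlgClosed.exists_root (ratioPoly H T) (degree_ratioPoly_ne_zero H T h)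
  rw [IsRoot.def, eval_ratioPoly] at hs
  set h0 := kHa s 1 with hh0
  set k0 := kTa s 1 with hk0
  have hne : ¬ (h0 = 0 ∧ k0 = 0) := fun hh =>
    one_ne_zero (eq_zero_of_kHa_kTa h30 s 1 hh.1 hh.2).2
  -- it suffices to find `c` with `c⁴ h0 = H`, `c⁶ k0 = T`
  suffices hc : ∃ c : k, c ^ 4 * h0 = H ∧ c ^ 6 * k0 = T by
    obtain ⟨c, hc1, hc2⟩ := hc
    exact ⟨c * s, c * 1, by rw [kHa_smul, hc1], by rw [kTa_smul, hc2]⟩
  by_cases hH : H = 0
  · subst hH
    have hT : T ≠ 0 := fun hT => h (by rw [hT]; ring)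
    have hh : h0 = 0 := by
      have : T ^ 2 * h0 ^ 3 = 0 := by linear_combination hs
      exact pow_eq_zero_iff (by norm_num) |>.1
        ((mul_eq_zero.1 this).resolve_left (pow_ne_zero _ hT))
    have hk : k0 ≠ 0 := fun hk => hne ⟨hh, hk⟩
    obtain ⟨c, hc⟩ := IsAlgClosed.exists_pow_nat_eq (T / k0) (n := 6) (by norm_num)
    exact ⟨c, by rw [hh, mul_zero], by rw [hc]; field_simp⟩
  by_cases hT : T = 0
  · subst hT
    have hk : k0 = 0 := by
      have : H ^ 3 * k0 ^ 2 = 0 := by linear_combination -hs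
      exact pow_eq_zero_iff (by norm_num) |>.1
        ((mul_eq_zero.1 this).resolve_left (pow_ne_zero _ hH))
    have hh : h0 ≠ 0 := fun hh => hne ⟨hh, hk⟩
    obtain ⟨c, hc⟩ := IsAlgClosed.exists_pow_nat_eq (H / h0) (n := 4) (by norm_num)
    exact ⟨c, by rw [hc]; field_simp, by rw [hk, mul_zero]⟩
  have hh : h0 ≠ 0 := by
    intro hh
    have : H ^ 3 * k0 ^ 2 = 0 := by rw [hh] at hs; linear_combination -hs
    exact hne ⟨hh, pow_eq_zero_iff (by norm_num) |>.1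
        ((mul_eq_zero.1 this).resolve_left (pow_ne_zero _ hH))⟩
  have hk : k0 ≠ 0 := by
    intro hk
    have : T ^ 2 * h0 ^ 3 = 0 := by rw [hk] at hs; linear_combination hs
    exact hne ⟨pow_eq_zero_iff (by norm_num) |>.1
        ((mul_eq_zero.1 this).resolve_left (pow_ne_zero _ hT)), hk⟩
  obtain ⟨c, hc⟩ := IsAlgClosed.exists_pow_nat_eq (T * h0 / (k0 * H)) (n := 2) (by norm_num)
  have e1 : c ^ 4 * h0 = H := by
    have : c ^ 4 = (c ^ 2) ^ 2 := by ring
    rw [this, hc]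
    field_simp
    linear_combination hs
  refine ⟨c, e1, ?_⟩
  have : c ^ 6 * k0 = c ^ 2 * (c ^ 4 * h0) * k0 / h0 := by field_simp
  rw [this, e1, hc]
  field_simp

/-- **K2**: surjectivity of `(u,v) ↦ (kH u v, kT u v)`. -/
theorem exists_uv (h30 : (30 : k) ≠ 0) (H T : k) (h : H ^ 3 - T ^ 2 ≠ 0) :
    ∃ u v : k, kH u v = H ∧ kT u v = T := by
  obtain ⟨a, b, h1, h2⟩ := exists_ab h30 H T h
  obtain ⟨u, hu⟩ := IsAlgClosed.exists_pow_nat_eq a (n := 5) (by norm_num)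
  obtain ⟨v, hv⟩ := IsAlgClosed.exists_pow_nat_eq b (n := 5) (by norm_num)
  exact ⟨u, v, by rw [kH_eq_kHa, hu, hv, h1], by rw [kT_eq_kTa, hu, hv, h2]⟩

end Fermat.Agent.S52
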