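import Fermat.Agent.S52.Klein.AB

/-!
# S52, K1: coefficients for `kf_line`, part 2 (generated identities in two variables)
-/

set_option autoImplicit false

namespace Fermat.Agent.S52

variable {R : Type*} [CommRing R]

/-- coefficient of `t^2`. -/
def lineF_r2 (a b A B : R) : R :=
  A ^ 0 * B ^ 2 * ((165) * a ^ 1 * b ^ 1 + (-55) * a ^ 0 * b ^ 2)
      + A ^ 1 * B ^ 1 * ((-11) * a ^ 2 * b ^ 0 + (-396) * a ^ 1 * b ^ 1 + (11) * a ^ 0 * b ^ 2)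
      + A ^ 2 * B ^ 0 * ((55) * a ^ 2 * b ^ 0 + (165) * a ^ 1 * b ^ 1)

set_option linter.unusedSimpArgs false in
set_option maxHeartbeats 4000000 in
theorem lineF_coeff2 (a b : R) :
    kq a b * famDc (kHab a b) (kTab a b) 2 = lineF_r2 a b (kal a b) (kbe a b) := by
  simp only [famDc, kHab, kTab, lineF_r2, kal, kbe, kq]
  ring

/-- coefficient of `t^3`. -/
def lineF_r3 (a b A B : R) : R :=
  A ^ 0 * B ^ 3 * ((-220) * a ^ 1 * b ^ 1 + (165) * a ^ 0 * b ^ 2)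
      + A ^ 1 * B ^ 2 * ((990) * a ^ 1 * b ^ 1 + (-55) * a ^ 0 * b ^ 2)
      + A ^ 2 * B ^ 1 * ((-55) * a ^ 2 * b ^ 0 + (-990) * a ^ 1 * b ^ 1)
      + A ^ 3 * B ^ 0 * ((165) * a ^ 2 * b ^ 0 + (220) * a ^ 1 * b ^ 1)

set_option linter.unusedSimpArgs false in
set_option maxHeartbeats 4000000 in
theorem lineF_coeff3 (a b : R) :
    kq a b * famDc (kHab a b) (kTab a b) 3 = lineF_r3 a b (kal a b) (kbe a b) := by
  simp only [famDc, kHab, kTab, lineF_r3, kal, kbe, kq]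
  ring

/-- coefficient of `t^6`. -/
def lineF_r6 (a b A B : R) : R :=
  A ^ 0 * B ^ 6 * ((11) * a ^ 1 * b ^ 1 + (-462) * a ^ 0 * b ^ 2)
      + A ^ 1 * B ^ 5 * ((-396) * a ^ 1 * b ^ 1 + (462) * a ^ 0 * b ^ 2)
      + A ^ 2 * B ^ 4 * ((2475) * a ^ 1 * b ^ 1)
      + A ^ 3 * B ^ 3 * ((-4400) * a ^ 1 * b ^ 1)
      + A ^ 4 * B ^ 2 * ((2475) * a ^ 1 * b ^ 1)
      + A ^ 5 * B ^ 1 * ((-462) * a ^ 2 * b ^ 0 + (-396) * a ^ 1 * b ^ 1)
      + A ^ 6 * B ^ 0 * ((462) * a ^ 2 * b ^ 0 + (11) * a ^ 1 * b ^ 1)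

set_option linter.unusedSimpArgs false in
set_option maxHeartbeats 4000000 in
theorem lineF_coeff6 (a b : R) :
    kq a b * famDc (kHab a b) (kTab a b) 6 = lineF_r6 a b (kal a b) (kbe a b) := by
  simp only [famDc, kHab, kTab, lineF_r6, kal, kbe, kq]
  ring

/-- coefficient of `t^7`. -/
def lineF_r7 (a b A B : R) : R :=
  A ^ 0 * B ^ 7 * ((330) * a ^ 0 * b ^ 2)
      + A ^ 1 * B ^ 6 * ((66) * a ^ 1 * b ^ 1 + (-462) * a ^ 0 * b ^ 2)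
      + A ^ 2 * B ^ 5 * ((-990) * a ^ 1 * b ^ 1)
      + A ^ 3 * B ^ 4 * ((3300) * a ^ 1 * b ^ 1)
      + A ^ 4 * B ^ 3 * ((-3300) * a ^ 1 * b ^ 1)
      + A ^ 5 * B ^ 2 * ((990) * a ^ 1 * b ^ 1)
      + A ^ 6 * B ^ 1 * ((-462) * a ^ 2 * b ^ 0 + (-66) * a ^ 1 * b ^ 1)
      + A ^ 7 * B ^ 0 * ((330) * a ^ 2 * b ^ 0)

set_option linter.unusedSimpArgs false in
set_option maxHeartbeats 4000000 in
theorem lineF_coeff7 (a b : R) :
    kq a b * famDc (kHab a b) (kTab a b) 7 = lineF_r7 a b (kal a b) (kbe a b) := by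
  simp only [famDc, kHab, kTab, lineF_r7, kal, kbe, kq]
  ring

/-- coefficient of `t^10`. -/
def lineF_r10 (a b A B : R) : R :=
  A ^ 0 * B ^ 10 * ((-11) * a ^ 0 * b ^ 2)
      + A ^ 1 * B ^ 9 * ((55) * a ^ 0 * b ^ 2)
      + A ^ 4 * B ^ 6 * ((165) * a ^ 1 * b ^ 1)
      + A ^ 5 * B ^ 5 * ((-396) * a ^ 1 * b ^ 1)
      + A ^ 6 * B ^ 4 * ((165) * a ^ 1 * b ^ 1)
      + A ^ 9 * B ^ 1 * ((-55) * a ^ 2 * b ^ 0)
      + A ^ 10 * B ^ 0 * ((11) * a ^ 2 * b ^ 0)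

set_option linter.unusedSimpArgs false in
set_option maxHeartbeats 4000000 in
theorem lineF_coeff10 (a b : R) :
    kq a b * famDc (kHab a b) (kTab a b) 10 = lineF_r10 a b (kal a b) (kbe a b) := by
  simp only [famDc, kHab, kTab, lineF_r10, kal, kbe, kq]
  ring

/-- coefficient of `t^11`. -/
def lineF_r11 (a b A B : R) : R :=
  A ^ 0 * B ^ 11 * ((1) * a ^ 0 * b ^ 2)
      + A ^ 1 * B ^ 10 * ((-11) * a ^ 0 * b ^ 2)
      + A ^ 5 * B ^ 6 * ((66) * a ^ 1 * b ^ 1)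
      + A ^ 6 * B ^ 5 * ((-66) * a ^ 1 * b ^ 1)
      + A ^ 10 * B ^ 1 * ((-11) * a ^ 2 * b ^ 0)
      + A ^ 11 * B ^ 0 * ((1) * a ^ 2 * b ^ 0)

set_option linter.unusedSimpArgs false in
set_option maxHeartbeats 4000000 in
theorem lineF_coeff11 (a b : R) :
    kq a b * famDc (kHab a b) (kTab a b) 11 = lineF_r11 a b (kal a b) (kbe a b) := by
  simp only [famDc, kHab, kTab, lineF_r11, kal, kbe, kq]
  ring

end Fermat.Agent.S52
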