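import Fermat.Agent.S52.Klein.LineF1
import Fermat.Agent.S52.Klein.LineF2

/-!
# S52, K1c: `kf` along the covariant line
-/

set_option autoImplicit false

namespace Fermat.Agent.S52

variable {R : Type*} [CommRing R]

set_option maxHeartbeats 4000000 in
theorem lineF_expand (a b A B t : R) :
    (1 + t * A) * (1 - t * B) * ((a * (1 + t * A) ^ 5) ^ 2
        + 11 * (a * (1 + t * A) ^ 5) * (b * (1 - t * B) ^ 5) - (b * (1 - t * B) ^ 5) ^ 2) =
      lineF_r0 a b A B * t ^ 0
      + lineF_r1 a b A B * t ^ 1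
      + lineF_r2 a b A B * t ^ 2
      + lineF_r3 a b A B * t ^ 3
      + lineF_r4 a b A B * t ^ 4
      + lineF_r5 a b A B * t ^ 5
      + lineF_r6 a b A B * t ^ 6
      + lineF_r7 a b A B * t ^ 7
      + lineF_r8 a b A B * t ^ 8
      + lineF_r9 a b A B * t ^ 9
      + lineF_r10 a b A B * t ^ 10
      + lineF_r11 a b A B * t ^ 11
      + lineF_r12 a b A B * t ^ 12 := by
  simp only [lineF_r0, lineF_r1, lineF_r2, lineF_r3, lineF_r4, lineF_r5, lineF_r6, lineF_r7, lineF_r8, lineF_r9, lineF_r10, lineF_r11, lineF_r12]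
  ring

theorem kqab_line (a b t : R) :
    (1 + t * kal a b) * (1 - t * kbe a b) * ((a * (1 + t * kal a b) ^ 5) ^ 2
        + 11 * (a * (1 + t * kal a b) ^ 5) * (b * (1 - t * kbe a b) ^ 5)
        - (b * (1 - t * kbe a b) ^ 5) ^ 2) =
      (a ^ 2 + 11 * a * b - b ^ 2) * famD (kHab a b) (kTab a b) t := by
  rw [lineF_expand]
  change _ = kq a b * famD (kHab a b) (kTab a b) t
  rw [famD, Finset.mul_sum]
  simp only [Finset.sum_range_succ, Finset.sum_range_zero, zero_add, ← mul_assoc,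
    lineF_coeff0, lineF_coeff1, lineF_coeff2, lineF_coeff3, lineF_coeff4, lineF_coeff5, lineF_coeff6, lineF_coeff7, lineF_coeff8, lineF_coeff9, lineF_coeff10, lineF_coeff11, lineF_coeff12]

theorem kf_line (u v t : R) :
    kf (lineU u v t) (lineV u v t) = kf u v * famD (kH u v) (kT u v) t := by
  have h := kqab_line (u ^ 5) (v ^ 5) t
  rw [kf_eq_kq (lineU u v t) (lineV u v t), kf_eq_kq u v, lineU_eq, lineV_eq, mul_pow, mul_pow,
    kH_eq_kHab u v, kT_eq_kTab u v]
  unfold kq
  linear_combination u * v * h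

end Fermat.Agent.S52
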