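import Fermat.Agent.S52.Klein.LineH1

/-!
# S52, K1: coefficients for `kH_line`, part 2 (generated identities in two variables)
-/

set_option autoImplicit false

namespace Fermat.Agent.S52

variable {R : Type*} [CommRing R]

/-- coefficient of `t^1`. -/
def lineH_r1 (a b A B : R) : R :=
  A ^ 0 * B ^ 1 * ((1140) * a ^ 3 * b ^ 1 + (-4940) * a ^ 2 * b ^ 2 + (-3420) * a ^ 1 * b ^ 3 + (-20) * a ^ 0 * b ^ 4)
      + A ^ 1 * B ^ 0 * ((20) * a ^ 4 * b ^ 0 + (-3420) * a ^ 3 * b ^ 1 + (4940) * a ^ 2 * b ^ 2 + (1140) * a ^ 1 * b ^ 3)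

set_option linter.unusedSimpArgs false in
set_option maxHeartbeats 4000000 in
theorem lineH_coeff1 (a b : R) :
    famAc (kHab a b) (kTab a b) 1 = lineH_r1 a b (kal a b) (kbe a b) := by
  simp only [famAc, kHab, kTab, lineH_r1, kal, kbe]
  ring

/-- coefficient of `t^4`. -/
def lineH_r4 (a b A B : R) : R :=
  A ^ 0 * B ^ 4 * ((-1140) * a ^ 3 * b ^ 1 + (103740) * a ^ 2 * b ^ 2 + (311220) * a ^ 1 * b ^ 3 + (4845) * a ^ 0 * b ^ 4)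
      + A ^ 1 * B ^ 3 * ((34200) * a ^ 3 * b ^ 1 + (-592800) * a ^ 2 * b ^ 2 + (-518700) * a ^ 1 * b ^ 3)
      + A ^ 2 * B ^ 2 * ((-239400) * a ^ 3 * b ^ 1 + (1000350) * a ^ 2 * b ^ 2 + (239400) * a ^ 1 * b ^ 3)
      + A ^ 3 * B ^ 1 * ((518700) * a ^ 3 * b ^ 1 + (-592800) * a ^ 2 * b ^ 2 + (-34200) * a ^ 1 * b ^ 3)
      + A ^ 4 * B ^ 0 * ((4845) * a ^ 4 * b ^ 0 + (-311220) * a ^ 3 * b ^ 1 + (103740) * a ^ 2 * b ^ 2 + (1140) * a ^ 1 * b ^ 3)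

set_option linter.unusedSimpArgs false in
set_option maxHeartbeats 4000000 in
theorem lineH_coeff4 (a b : R) :
    famAc (kHab a b) (kTab a b) 4 = lineH_r4 a b (kal a b) (kbe a b) := by
  simp only [famAc, kHab, kTab, lineH_r4, kal, kbe]
  ring

/-- coefficient of `t^7`. -/
def lineH_r7 (a b A B : R) : R :=
  A ^ 0 * B ^ 7 * ((-59280) * a ^ 2 * b ^ 2 + (-1467180) * a ^ 1 * b ^ 3 + (-77520) * a ^ 0 * b ^ 4)
      + A ^ 1 * B ^ 6 * ((1037400) * a ^ 2 * b ^ 2 + (5705700) * a ^ 1 * b ^ 3)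
      + A ^ 2 * B ^ 5 * ((23940) * a ^ 3 * b ^ 1 + (-5601960) * a ^ 2 * b ^ 2 + (-6846840) * a ^ 1 * b ^ 3)
      + A ^ 3 * B ^ 4 * ((-518700) * a ^ 3 * b ^ 1 + (12448800) * a ^ 2 * b ^ 2 + (3112200) * a ^ 1 * b ^ 3)
      + A ^ 4 * B ^ 3 * ((3112200) * a ^ 3 * b ^ 1 + (-12448800) * a ^ 2 * b ^ 2 + (-518700) * a ^ 1 * b ^ 3)
      + A ^ 5 * B ^ 2 * ((-6846840) * a ^ 3 * b ^ 1 + (5601960) * a ^ 2 * b ^ 2 + (23940) * a ^ 1 * b ^ 3)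
      + A ^ 6 * B ^ 1 * ((5705700) * a ^ 3 * b ^ 1 + (-1037400) * a ^ 2 * b ^ 2)
      + A ^ 7 * B ^ 0 * ((77520) * a ^ 4 * b ^ 0 + (-1467180) * a ^ 3 * b ^ 1 + (59280) * a ^ 2 * b ^ 2)

set_option linter.unusedSimpArgs false in
set_option maxHeartbeats 4000000 in
theorem lineH_coeff7 (a b : R) :
    famAc (kHab a b) (kTab a b) 7 = lineH_r7 a b (kal a b) (kbe a b) := by
  simp only [famAc, kHab, kTab, lineH_r7, kal, kbe]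
  ring

/-- coefficient of `t^10`. -/
def lineH_r10 (a b A B : R) : R :=
  A ^ 0 * B ^ 10 * ((494) * a ^ 2 * b ^ 2 + (684684) * a ^ 1 * b ^ 3 + (184756) * a ^ 0 * b ^ 4)
      + A ^ 1 * B ^ 9 * ((-49400) * a ^ 2 * b ^ 2 + (-5705700) * a ^ 1 * b ^ 3)
      + A ^ 2 * B ^ 8 * ((1000350) * a ^ 2 * b ^ 2 + (14671800) * a ^ 1 * b ^ 3)
      + A ^ 3 * B ^ 7 * ((-7113600) * a ^ 2 * b ^ 2 + (-14671800) * a ^ 1 * b ^ 3)
      + A ^ 4 * B ^ 6 * ((21785400) * a ^ 2 * b ^ 2 + (5705700) * a ^ 1 * b ^ 3)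
      + A ^ 5 * B ^ 5 * ((684684) * a ^ 3 * b ^ 1 + (-31370976) * a ^ 2 * b ^ 2 + (-684684) * a ^ 1 * b ^ 3)
      + A ^ 6 * B ^ 4 * ((-5705700) * a ^ 3 * b ^ 1 + (21785400) * a ^ 2 * b ^ 2)
      + A ^ 7 * B ^ 3 * ((14671800) * a ^ 3 * b ^ 1 + (-7113600) * a ^ 2 * b ^ 2)
      + A ^ 8 * B ^ 2 * ((-14671800) * a ^ 3 * b ^ 1 + (1000350) * a ^ 2 * b ^ 2)
      + A ^ 9 * B ^ 1 * ((5705700) * a ^ 3 * b ^ 1 + (-49400) * a ^ 2 * b ^ 2)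
      + A ^ 10 * B ^ 0 * ((184756) * a ^ 4 * b ^ 0 + (-684684) * a ^ 3 * b ^ 1 + (494) * a ^ 2 * b ^ 2)

set_option linter.unusedSimpArgs false in
set_option maxHeartbeats 4000000 in
theorem lineH_coeff10 (a b : R) :
    famAc (kHab a b) (kTab a b) 10 = lineH_r10 a b (kal a b) (kbe a b) := by
  simp only [famAc, kHab, kTab, lineH_r10, kal, kbe]
  ring

/-- coefficient of `t^13`. -/
def lineH_r13 (a b A B : R) : R :=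
  A ^ 0 * B ^ 13 * ((-23940) * a ^ 1 * b ^ 3 + (-77520) * a ^ 0 * b ^ 4)
      + A ^ 1 * B ^ 12 * ((518700) * a ^ 1 * b ^ 3)
      + A ^ 2 * B ^ 11 * ((-3112200) * a ^ 1 * b ^ 3)
      + A ^ 3 * B ^ 10 * ((59280) * a ^ 2 * b ^ 2 + (6846840) * a ^ 1 * b ^ 3)
      + A ^ 4 * B ^ 9 * ((-1037400) * a ^ 2 * b ^ 2 + (-5705700) * a ^ 1 * b ^ 3)
      + A ^ 5 * B ^ 8 * ((5601960) * a ^ 2 * b ^ 2 + (1467180) * a ^ 1 * b ^ 3)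
      + A ^ 6 * B ^ 7 * ((-12448800) * a ^ 2 * b ^ 2)
      + A ^ 7 * B ^ 6 * ((12448800) * a ^ 2 * b ^ 2)
      + A ^ 8 * B ^ 5 * ((1467180) * a ^ 3 * b ^ 1 + (-5601960) * a ^ 2 * b ^ 2)
      + A ^ 9 * B ^ 4 * ((-5705700) * a ^ 3 * b ^ 1 + (1037400) * a ^ 2 * b ^ 2)
      + A ^ 10 * B ^ 3 * ((6846840) * a ^ 3 * b ^ 1 + (-59280) * a ^ 2 * b ^ 2)
      + A ^ 11 * B ^ 2 * ((-3112200) * a ^ 3 * b ^ 1)
      + A ^ 12 * B ^ 1 * ((518700) * a ^ 3 * b ^ 1)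
      + A ^ 13 * B ^ 0 * ((77520) * a ^ 4 * b ^ 0 + (-23940) * a ^ 3 * b ^ 1)

set_option linter.unusedSimpArgs false in
set_option maxHeartbeats 4000000 in
theorem lineH_coeff13 (a b : R) :
    famAc (kHab a b) (kTab a b) 13 = lineH_r13 a b (kal a b) (kbe a b) := by
  simp only [famAc, kHab, kTab, lineH_r13, kal, kbe]
  ring

/-- coefficient of `t^16`. -/
def lineH_r16 (a b A B : R) : R :=
  A ^ 0 * B ^ 16 * ((4845) * a ^ 0 * b ^ 4)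
      + A ^ 1 * B ^ 15 * ((-1140) * a ^ 1 * b ^ 3)
      + A ^ 2 * B ^ 14 * ((34200) * a ^ 1 * b ^ 3)
      + A ^ 3 * B ^ 13 * ((-239400) * a ^ 1 * b ^ 3)
      + A ^ 4 * B ^ 12 * ((518700) * a ^ 1 * b ^ 3)
      + A ^ 5 * B ^ 11 * ((-311220) * a ^ 1 * b ^ 3)
      + A ^ 6 * B ^ 10 * ((103740) * a ^ 2 * b ^ 2)
      + A ^ 7 * B ^ 9 * ((-592800) * a ^ 2 * b ^ 2)
      + A ^ 8 * B ^ 8 * ((1000350) * a ^ 2 * b ^ 2)
      + A ^ 9 * B ^ 7 * ((-592800) * a ^ 2 * b ^ 2)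
      + A ^ 10 * B ^ 6 * ((103740) * a ^ 2 * b ^ 2)
      + A ^ 11 * B ^ 5 * ((311220) * a ^ 3 * b ^ 1)
      + A ^ 12 * B ^ 4 * ((-518700) * a ^ 3 * b ^ 1)
      + A ^ 13 * B ^ 3 * ((239400) * a ^ 3 * b ^ 1)
      + A ^ 14 * B ^ 2 * ((-34200) * a ^ 3 * b ^ 1)
      + A ^ 15 * B ^ 1 * ((1140) * a ^ 3 * b ^ 1)
      + A ^ 16 * B ^ 0 * ((4845) * a ^ 4 * b ^ 0)

set_option linter.unusedSimpArgs false in
set_option maxHeartbeats 4000000 in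
theorem lineH_coeff16 (a b : R) :
    famAc (kHab a b) (kTab a b) 16 = lineH_r16 a b (kal a b) (kbe a b) := by
  simp only [famAc, kHab, kTab, lineH_r16, kal, kbe]
  ring

/-- coefficient of `t^19`. -/
def lineH_r19 (a b A B : R) : R :=
  A ^ 0 * B ^ 19 * ((-20) * a ^ 0 * b ^ 4)
      + A ^ 4 * B ^ 15 * ((-1140) * a ^ 1 * b ^ 3)
      + A ^ 5 * B ^ 14 * ((3420) * a ^ 1 * b ^ 3)
      + A ^ 9 * B ^ 10 * ((4940) * a ^ 2 * b ^ 2)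
      + A ^ 10 * B ^ 9 * ((-4940) * a ^ 2 * b ^ 2)
      + A ^ 14 * B ^ 5 * ((3420) * a ^ 3 * b ^ 1)
      + A ^ 15 * B ^ 4 * ((-1140) * a ^ 3 * b ^ 1)
      + A ^ 19 * B ^ 0 * ((20) * a ^ 4 * b ^ 0)

set_option linter.unusedSimpArgs false in
set_option maxHeartbeats 4000000 in
theorem lineH_coeff19 (a b : R) :
    famAc (kHab a b) (kTab a b) 19 = lineH_r19 a b (kal a b) (kbe a b) := by
  simp only [famAc, kHab, kTab, lineH_r19, kal, kbe]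
  ring

end Fermat.Agent.S52
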