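import Fermat.Agent.S52.Klein.LineH2

/-!
# S52, K1: coefficients for `kH_line`, part 3 (generated identities in two variables)
-/

set_option autoImplicit false

namespace Fermat.Agent.S52

variable {R : Type*} [CommRing R]

/-- coefficient of `t^0`. -/
def lineH_r0 (a b A B : R) : R :=
  A ^ 0 * B ^ 0 * ((1) * a ^ 4 * b ^ 0 + (-228) * a ^ 3 * b ^ 1 + (494) * a ^ 2 * b ^ 2 + (228) * a ^ 1 * b ^ 3 + (1) * a ^ 0 * b ^ 4)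

set_option linter.unusedSimpArgs false in
set_option maxHeartbeats 4000000 in
theorem lineH_coeff0 (a b : R) :
    famAc (kHab a b) (kTab a b) 0 = lineH_r0 a b (kal a b) (kbe a b) := by
  simp only [famAc, kHab, kTab, lineH_r0, kal, kbe]
  ring

/-- coefficient of `t^5`. -/
def lineH_r5 (a b A B : R) : R :=
  A ^ 0 * B ^ 5 * ((228) * a ^ 3 * b ^ 1 + (-124488) * a ^ 2 * b ^ 2 + (-684684) * a ^ 1 * b ^ 3 + (-15504) * a ^ 0 * b ^ 4)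
      + A ^ 1 * B ^ 4 * ((-17100) * a ^ 3 * b ^ 1 + (1037400) * a ^ 2 * b ^ 2 + (1556100) * a ^ 1 * b ^ 3)
      + A ^ 2 * B ^ 3 * ((239400) * a ^ 3 * b ^ 1 + (-2667600) * a ^ 2 * b ^ 2 + (-1037400) * a ^ 1 * b ^ 3)
      + A ^ 3 * B ^ 2 * ((-1037400) * a ^ 3 * b ^ 1 + (2667600) * a ^ 2 * b ^ 2 + (239400) * a ^ 1 * b ^ 3)
      + A ^ 4 * B ^ 1 * ((1556100) * a ^ 3 * b ^ 1 + (-1037400) * a ^ 2 * b ^ 2 + (-17100) * a ^ 1 * b ^ 3)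
      + A ^ 5 * B ^ 0 * ((15504) * a ^ 4 * b ^ 0 + (-684684) * a ^ 3 * b ^ 1 + (124488) * a ^ 2 * b ^ 2 + (228) * a ^ 1 * b ^ 3)

set_option linter.unusedSimpArgs false in
set_option maxHeartbeats 4000000 in
theorem lineH_coeff5 (a b : R) :
    famAc (kHab a b) (kTab a b) 5 = lineH_r5 a b (kal a b) (kbe a b) := by
  simp only [famAc, kHab, kTab, lineH_r5, kal, kbe]
  ring

/-- coefficient of `t^6`. -/
def lineH_r6 (a b A B : R) : R :=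
  A ^ 0 * B ^ 6 * ((103740) * a ^ 2 * b ^ 2 + (1141140) * a ^ 1 * b ^ 3 + (38760) * a ^ 0 * b ^ 4)
      + A ^ 1 * B ^ 5 * ((3420) * a ^ 3 * b ^ 1 + (-1244880) * a ^ 2 * b ^ 2 + (-3423420) * a ^ 1 * b ^ 3)
      + A ^ 2 * B ^ 4 * ((-119700) * a ^ 3 * b ^ 1 + (4668300) * a ^ 2 * b ^ 2 + (3112200) * a ^ 1 * b ^ 3)
      + A ^ 3 * B ^ 3 * ((1037400) * a ^ 3 * b ^ 1 + (-7113600) * a ^ 2 * b ^ 2 + (-1037400) * a ^ 1 * b ^ 3)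
      + A ^ 4 * B ^ 2 * ((-3112200) * a ^ 3 * b ^ 1 + (4668300) * a ^ 2 * b ^ 2 + (119700) * a ^ 1 * b ^ 3)
      + A ^ 5 * B ^ 1 * ((3423420) * a ^ 3 * b ^ 1 + (-1244880) * a ^ 2 * b ^ 2 + (-3420) * a ^ 1 * b ^ 3)
      + A ^ 6 * B ^ 0 * ((38760) * a ^ 4 * b ^ 0 + (-1141140) * a ^ 3 * b ^ 1 + (103740) * a ^ 2 * b ^ 2)

set_option linter.unusedSimpArgs false in
set_option maxHeartbeats 4000000 in
theorem lineH_coeff6 (a b : R) :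
    famAc (kHab a b) (kTab a b) 6 = lineH_r6 a b (kal a b) (kbe a b) := by
  simp only [famAc, kHab, kTab, lineH_r6, kal, kbe]
  ring

/-- coefficient of `t^11`. -/
def lineH_r11 (a b A B : R) : R :=
  A ^ 0 * B ^ 11 * ((-311220) * a ^ 1 * b ^ 3 + (-167960) * a ^ 0 * b ^ 4)
      + A ^ 1 * B ^ 10 * ((4940) * a ^ 2 * b ^ 2 + (3423420) * a ^ 1 * b ^ 3)
      + A ^ 2 * B ^ 9 * ((-222300) * a ^ 2 * b ^ 2 + (-11411400) * a ^ 1 * b ^ 3)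
      + A ^ 3 * B ^ 8 * ((2667600) * a ^ 2 * b ^ 2 + (14671800) * a ^ 1 * b ^ 3)
      + A ^ 4 * B ^ 7 * ((-12448800) * a ^ 2 * b ^ 2 + (-7335900) * a ^ 1 * b ^ 3)
      + A ^ 5 * B ^ 6 * ((26142480) * a ^ 2 * b ^ 2 + (1141140) * a ^ 1 * b ^ 3)
      + A ^ 6 * B ^ 5 * ((1141140) * a ^ 3 * b ^ 1 + (-26142480) * a ^ 2 * b ^ 2)
      + A ^ 7 * B ^ 4 * ((-7335900) * a ^ 3 * b ^ 1 + (12448800) * a ^ 2 * b ^ 2)
      + A ^ 8 * B ^ 3 * ((14671800) * a ^ 3 * b ^ 1 + (-2667600) * a ^ 2 * b ^ 2)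
      + A ^ 9 * B ^ 2 * ((-11411400) * a ^ 3 * b ^ 1 + (222300) * a ^ 2 * b ^ 2)
      + A ^ 10 * B ^ 1 * ((3423420) * a ^ 3 * b ^ 1 + (-4940) * a ^ 2 * b ^ 2)
      + A ^ 11 * B ^ 0 * ((167960) * a ^ 4 * b ^ 0 + (-311220) * a ^ 3 * b ^ 1)

set_option linter.unusedSimpArgs false in
set_option maxHeartbeats 4000000 in
theorem lineH_coeff11 (a b : R) :
    famAc (kHab a b) (kTab a b) 11 = lineH_r11 a b (kal a b) (kbe a b) := by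
  simp only [famAc, kHab, kTab, lineH_r11, kal, kbe]
  ring

/-- coefficient of `t^12`. -/
def lineH_r12 (a b A B : R) : R :=
  A ^ 0 * B ^ 12 * ((103740) * a ^ 1 * b ^ 3 + (125970) * a ^ 0 * b ^ 4)
      + A ^ 1 * B ^ 11 * ((-1556100) * a ^ 1 * b ^ 3)
      + A ^ 2 * B ^ 10 * ((22230) * a ^ 2 * b ^ 2 + (6846840) * a ^ 1 * b ^ 3)
      + A ^ 3 * B ^ 9 * ((-592800) * a ^ 2 * b ^ 2 + (-11411400) * a ^ 1 * b ^ 3)
      + A ^ 4 * B ^ 8 * ((4668300) * a ^ 2 * b ^ 2 + (7335900) * a ^ 1 * b ^ 3)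
      + A ^ 5 * B ^ 7 * ((-14938560) * a ^ 2 * b ^ 2 + (-1467180) * a ^ 1 * b ^ 3)
      + A ^ 6 * B ^ 6 * ((21785400) * a ^ 2 * b ^ 2)
      + A ^ 7 * B ^ 5 * ((1467180) * a ^ 3 * b ^ 1 + (-14938560) * a ^ 2 * b ^ 2)
      + A ^ 8 * B ^ 4 * ((-7335900) * a ^ 3 * b ^ 1 + (4668300) * a ^ 2 * b ^ 2)
      + A ^ 9 * B ^ 3 * ((11411400) * a ^ 3 * b ^ 1 + (-592800) * a ^ 2 * b ^ 2)
      + A ^ 10 * B ^ 2 * ((-6846840) * a ^ 3 * b ^ 1 + (22230) * a ^ 2 * b ^ 2)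
      + A ^ 11 * B ^ 1 * ((1556100) * a ^ 3 * b ^ 1)
      + A ^ 12 * B ^ 0 * ((125970) * a ^ 4 * b ^ 0 + (-103740) * a ^ 3 * b ^ 1)

set_option linter.unusedSimpArgs false in
set_option maxHeartbeats 4000000 in
theorem lineH_coeff12 (a b : R) :
    famAc (kHab a b) (kTab a b) 12 = lineH_r12 a b (kal a b) (kbe a b) := by
  simp only [famAc, kHab, kTab, lineH_r12, kal, kbe]
  ring

/-- coefficient of `t^17`. -/
def lineH_r17 (a b A B : R) : R :=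
  A ^ 0 * B ^ 17 * ((-1140) * a ^ 0 * b ^ 4)
      + A ^ 2 * B ^ 15 * ((-2280) * a ^ 1 * b ^ 3)
      + A ^ 3 * B ^ 14 * ((34200) * a ^ 1 * b ^ 3)
      + A ^ 4 * B ^ 13 * ((-119700) * a ^ 1 * b ^ 3)
      + A ^ 5 * B ^ 12 * ((103740) * a ^ 1 * b ^ 3)
      + A ^ 7 * B ^ 10 * ((59280) * a ^ 2 * b ^ 2)
      + A ^ 8 * B ^ 9 * ((-222300) * a ^ 2 * b ^ 2)
      + A ^ 9 * B ^ 8 * ((222300) * a ^ 2 * b ^ 2)
      + A ^ 10 * B ^ 7 * ((-59280) * a ^ 2 * b ^ 2)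
      + A ^ 12 * B ^ 5 * ((103740) * a ^ 3 * b ^ 1)
      + A ^ 13 * B ^ 4 * ((-119700) * a ^ 3 * b ^ 1)
      + A ^ 14 * B ^ 3 * ((34200) * a ^ 3 * b ^ 1)
      + A ^ 15 * B ^ 2 * ((-2280) * a ^ 3 * b ^ 1)
      + A ^ 17 * B ^ 0 * ((1140) * a ^ 4 * b ^ 0)

set_option linter.unusedSimpArgs false in
set_option maxHeartbeats 4000000 in
theorem lineH_coeff17 (a b : R) :
    famAc (kHab a b) (kTab a b) 17 = lineH_r17 a b (kal a b) (kbe a b) := by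
  simp only [famAc, kHab, kTab, lineH_r17, kal, kbe]
  ring

/-- coefficient of `t^18`. -/
def lineH_r18 (a b A B : R) : R :=
  A ^ 0 * B ^ 18 * ((190) * a ^ 0 * b ^ 4)
      + A ^ 3 * B ^ 15 * ((-2280) * a ^ 1 * b ^ 3)
      + A ^ 4 * B ^ 14 * ((17100) * a ^ 1 * b ^ 3)
      + A ^ 5 * B ^ 13 * ((-23940) * a ^ 1 * b ^ 3)
      + A ^ 8 * B ^ 10 * ((22230) * a ^ 2 * b ^ 2)
      + A ^ 9 * B ^ 9 * ((-49400) * a ^ 2 * b ^ 2)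
      + A ^ 10 * B ^ 8 * ((22230) * a ^ 2 * b ^ 2)
      + A ^ 13 * B ^ 5 * ((23940) * a ^ 3 * b ^ 1)
      + A ^ 14 * B ^ 4 * ((-17100) * a ^ 3 * b ^ 1)
      + A ^ 15 * B ^ 3 * ((2280) * a ^ 3 * b ^ 1)
      + A ^ 18 * B ^ 0 * ((190) * a ^ 4 * b ^ 0)

set_option linter.unusedSimpArgs false in
set_option maxHeartbeats 4000000 in
theorem lineH_coeff18 (a b : R) :
    famAc (kHab a b) (kTab a b) 18 = lineH_r18 a b (kal a b) (kbe a b) := by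
  simp only [famAc, kHab, kTab, lineH_r18, kal, kbe]
  ring

end Fermat.Agent.S52
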