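import Fermat.Agent.S52.Klein.LineH1
import Fermat.Agent.S52.Klein.LineH2
import Fermat.Agent.S52.Klein.LineH3

/-!
# S52, K1a: `kH` along the covariant line
-/

set_option autoImplicit false

namespace Fermat.Agent.S52

variable {R : Type*} [CommRing R]

set_option maxHeartbeats 4000000 in
theorem lineH_expand (a b A B t : R) :
    kHab (a * (1 + t * A) ^ 5) (b * (1 - t * B) ^ 5) =
      lineH_r0 a b A B * t ^ 0
      + lineH_r1 a b A B * t ^ 1
      + lineH_r2 a b A B * t ^ 2
      + lineH_r3 a b A B * t ^ 3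
      + lineH_r4 a b A B * t ^ 4
      + lineH_r5 a b A B * t ^ 5
      + lineH_r6 a b A B * t ^ 6
      + lineH_r7 a b A B * t ^ 7
      + lineH_r8 a b A B * t ^ 8
      + lineH_r9 a b A B * t ^ 9
      + lineH_r10 a b A B * t ^ 10
      + lineH_r11 a b A B * t ^ 11
      + lineH_r12 a b A B * t ^ 12
      + lineH_r13 a b A B * t ^ 13
      + lineH_r14 a b A B * t ^ 14
      + lineH_r15 a b A B * t ^ 15
      + lineH_r16 a b A B * t ^ 16
      + lineH_r17 a b A B * t ^ 17
      + lineH_r18 a b A B * t ^ 18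
      + lineH_r19 a b A B * t ^ 19
      + lineH_r20 a b A B * t ^ 20 := by
  simp only [kHab, lineH_r0, lineH_r1, lineH_r2, lineH_r3, lineH_r4, lineH_r5, lineH_r6, lineH_r7, lineH_r8, lineH_r9, lineH_r10, lineH_r11, lineH_r12, lineH_r13, lineH_r14, lineH_r15, lineH_r16, lineH_r17, lineH_r18, lineH_r19, lineH_r20]
  ring

theorem kHab_line (a b t : R) :
    kHab (a * (1 + t * kal a b) ^ 5) (b * (1 - t * kbe a b) ^ 5) =
      famA (kHab a b) (kTab a b) t := by
  rw [lineH_expand]
  simp only [famA, Finset.sum_range_succ, Finset.sum_range_zero, zero_add,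
    lineH_coeff0, lineH_coeff1, lineH_coeff2, lineH_coeff3, lineH_coeff4, lineH_coeff5, lineH_coeff6, lineH_coeff7, lineH_coeff8, lineH_coeff9, lineH_coeff10, lineH_coeff11, lineH_coeff12, lineH_coeff13, lineH_coeff14, lineH_coeff15, lineH_coeff16, lineH_coeff17, lineH_coeff18, lineH_coeff19, lineH_coeff20]

theorem kH_line (u v t : R) :
    kH (lineU u v t) (lineV u v t) = famA (kH u v) (kT u v) t := by
  rw [kH_eq_kHab (lineU u v t) (lineV u v t), lineU_eq, lineV_eq, mul_pow, mul_pow,
    kH_eq_kHab u v, kT_eq_kTab u v, kHab_line]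

end Fermat.Agent.S52
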