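import Fermat.Agent.S52.Klein.LineT1

/-!
# S52, K1: coefficients for `kT_line`, part 2 (generated identities in two variables)
-/

set_option autoImplicit false

namespace Fermat.Agent.S52

variable {R : Type*} [CommRing R]

/-- coefficient of `t^5`. -/
def lineT_r5 (a b A B : R) : R :=
  A ^ 0 * B ^ 5 * ((-142506) * a ^ 0 * b ^ 6 + (-522) * a ^ 5 * b ^ 1 + (27733860) * a ^ 1 * b ^ 5 + (2521260) * a ^ 4 * b ^ 2 + (155117520) * a ^ 2 * b ^ 4)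
      + A ^ 1 * B ^ 4 * ((65250) * a ^ 5 * b ^ 1 + (-33016500) * a ^ 1 * b ^ 5 + (-42021000) * a ^ 4 * b ^ 2 + (-484742250) * a ^ 2 * b ^ 4)
      + A ^ 2 * B ^ 3 * ((-1566000) * a ^ 5 * b ^ 1 + (12006000) * a ^ 1 * b ^ 5 + (228114000) * a ^ 4 * b ^ 2 + (513256500) * a ^ 2 * b ^ 4)
      + A ^ 3 * B ^ 2 * ((12006000) * a ^ 5 * b ^ 1 + (-1566000) * a ^ 1 * b ^ 5 + (-513256500) * a ^ 4 * b ^ 2 + (-228114000) * a ^ 2 * b ^ 4)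
      + A ^ 4 * B ^ 1 * ((-33016500) * a ^ 5 * b ^ 1 + (65250) * a ^ 1 * b ^ 5 + (484742250) * a ^ 4 * b ^ 2 + (42021000) * a ^ 2 * b ^ 4)
      + A ^ 5 * B ^ 0 * ((142506) * a ^ 6 * b ^ 0 + (27733860) * a ^ 5 * b ^ 1 + (-522) * a ^ 1 * b ^ 5 + (-155117520) * a ^ 4 * b ^ 2 + (-2521260) * a ^ 2 * b ^ 4)

set_option linter.unusedSimpArgs false in
set_option maxHeartbeats 4000000 in
theorem lineT_coeff5 (a b : R) :
    famBc (kHab a b) (kTab a b) 5 = lineT_r5 a b (kal a b) (kbe a b) := by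
  simp only [famBc, kHab, kTab, lineT_r5, kal, kbe]
  ring

/-- coefficient of `t^8`. -/
def lineT_r8 (a b A B : R) : R :=
  A ^ 0 * B ^ 8 * ((5852925) * a ^ 0 * b ^ 6 + (-564582150) * a ^ 1 * b ^ 5 + (-450225) * a ^ 4 * b ^ 2 + (-1260329850) * a ^ 2 * b ^ 4)
      + A ^ 1 * B ^ 7 * ((1254627000) * a ^ 1 * b ^ 5 + (24012000) * a ^ 4 * b ^ 2 + (7755876000) * a ^ 2 * b ^ 4)
      + A ^ 2 * B ^ 6 * ((-924462000) * a ^ 1 * b ^ 5 + (-399199500) * a ^ 4 * b ^ 2 + (-17450721000) * a ^ 2 * b ^ 4)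
      + A ^ 3 * B ^ 5 * ((-1200600) * a ^ 5 * b ^ 1 + (277338600) * a ^ 1 * b ^ 5 + (2874236400) * a ^ 4 * b ^ 2 + (18614102400) * a ^ 2 * b ^ 4)
      + A ^ 4 * B ^ 4 * ((33016500) * a ^ 5 * b ^ 1 + (-33016500) * a ^ 1 * b ^ 5 + (-10179587250) * a ^ 4 * b ^ 2 + (-10179587250) * a ^ 2 * b ^ 4)
      + A ^ 5 * B ^ 3 * ((-277338600) * a ^ 5 * b ^ 1 + (1200600) * a ^ 1 * b ^ 5 + (18614102400) * a ^ 4 * b ^ 2 + (2874236400) * a ^ 2 * b ^ 4)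
      + A ^ 6 * B ^ 2 * ((924462000) * a ^ 5 * b ^ 1 + (-17450721000) * a ^ 4 * b ^ 2 + (-399199500) * a ^ 2 * b ^ 4)
      + A ^ 7 * B ^ 1 * ((-1254627000) * a ^ 5 * b ^ 1 + (7755876000) * a ^ 4 * b ^ 2 + (24012000) * a ^ 2 * b ^ 4)
      + A ^ 8 * B ^ 0 * ((5852925) * a ^ 6 * b ^ 0 + (564582150) * a ^ 5 * b ^ 1 + (-1260329850) * a ^ 4 * b ^ 2 + (-450225) * a ^ 2 * b ^ 4)

set_option linter.unusedSimpArgs false in
set_option maxHeartbeats 4000000 in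
theorem lineT_coeff8 (a b : R) :
    famBc (kHab a b) (kTab a b) 8 = lineT_r8 a b (kal a b) (kbe a b) := by
  simp only [famBc, kHab, kTab, lineT_r8, kal, kbe]
  ring

/-- coefficient of `t^17`. -/
def lineT_r17 (a b A B : R) : R :=
  A ^ 0 * B ^ 17 * ((-119759850) * a ^ 0 * b ^ 6 + (564582150) * a ^ 1 * b ^ 5 + (11405700) * a ^ 2 * b ^ 4)
      + A ^ 1 * B ^ 16 * ((-5332164750) * a ^ 1 * b ^ 5 + (-484742250) * a ^ 2 * b ^ 4)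
      + A ^ 2 * B ^ 15 * ((17062927200) * a ^ 1 * b ^ 5 + (6980288400) * a ^ 2 * b ^ 4)
      + A ^ 3 * B ^ 14 * ((-23267628000) * a ^ 1 * b ^ 5 + (-46535256000) * a ^ 2 * b ^ 4)
      + A ^ 4 * B ^ 13 * ((13572783000) * a ^ 1 * b ^ 5 + (162873396000) * a ^ 2 * b ^ 4)
      + A ^ 5 * B ^ 12 * ((-2714556600) * a ^ 1 * b ^ 5 + (-317603122200) * a ^ 2 * b ^ 4)
      + A ^ 6 * B ^ 11 * ((352892358000) * a ^ 2 * b ^ 4)
      + A ^ 7 * B ^ 10 * ((-775587600) * a ^ 4 * b ^ 2 + (-221818053600) * a ^ 2 * b ^ 4)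
      + A ^ 8 * B ^ 9 * ((12603298500) * a ^ 4 * b ^ 2 + (75619791000) * a ^ 2 * b ^ 4)
      + A ^ 9 * B ^ 8 * ((-75619791000) * a ^ 4 * b ^ 2 + (-12603298500) * a ^ 2 * b ^ 4)
      + A ^ 10 * B ^ 7 * ((221818053600) * a ^ 4 * b ^ 2 + (775587600) * a ^ 2 * b ^ 4)
      + A ^ 11 * B ^ 6 * ((-352892358000) * a ^ 4 * b ^ 2)
      + A ^ 12 * B ^ 5 * ((-2714556600) * a ^ 5 * b ^ 1 + (317603122200) * a ^ 4 * b ^ 2)
      + A ^ 13 * B ^ 4 * ((13572783000) * a ^ 5 * b ^ 1 + (-162873396000) * a ^ 4 * b ^ 2)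
      + A ^ 14 * B ^ 3 * ((-23267628000) * a ^ 5 * b ^ 1 + (46535256000) * a ^ 4 * b ^ 2)
      + A ^ 15 * B ^ 2 * ((17062927200) * a ^ 5 * b ^ 1 + (-6980288400) * a ^ 4 * b ^ 2)
      + A ^ 16 * B ^ 1 * ((-5332164750) * a ^ 5 * b ^ 1 + (484742250) * a ^ 4 * b ^ 2)
      + A ^ 17 * B ^ 0 * ((119759850) * a ^ 6 * b ^ 0 + (564582150) * a ^ 5 * b ^ 1 + (-11405700) * a ^ 4 * b ^ 2)

set_option linter.unusedSimpArgs false in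
set_option maxHeartbeats 4000000 in
theorem lineT_coeff17 (a b : R) :
    famBc (kHab a b) (kTab a b) 17 = lineT_r17 a b (kal a b) (kbe a b) := by
  simp only [famBc, kHab, kTab, lineT_r17, kal, kbe]
  ring

/-- coefficient of `t^20`. -/
def lineT_r20 (a b A B : R) : R :=
  A ^ 0 * B ^ 20 * ((30045015) * a ^ 0 * b ^ 6 + (-27733860) * a ^ 1 * b ^ 5 + (-10005) * a ^ 2 * b ^ 4)
      + A ^ 1 * B ^ 19 * ((462231000) * a ^ 1 * b ^ 5 + (2001000) * a ^ 2 * b ^ 4)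
      + A ^ 2 * B ^ 18 * ((-2509254000) * a ^ 1 * b ^ 5 + (-85542750) * a ^ 2 * b ^ 4)
      + A ^ 3 * B ^ 17 * ((5645821500) * a ^ 1 * b ^ 5 + (1368684000) * a ^ 2 * b ^ 4)
      + A ^ 4 * B ^ 16 * ((-5332164750) * a ^ 1 * b ^ 5 + (-10179587250) * a ^ 2 * b ^ 4)
      + A ^ 5 * B ^ 15 * ((1706292720) * a ^ 1 * b ^ 5 + (39089615040) * a ^ 2 * b ^ 4)
      + A ^ 6 * B ^ 14 * ((-81436698000) * a ^ 2 * b ^ 4)
      + A ^ 7 * B ^ 13 * ((93070512000) * a ^ 2 * b ^ 4)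
      + A ^ 8 * B ^ 12 * ((-56714843250) * a ^ 2 * b ^ 4)
      + A ^ 9 * B ^ 11 * ((16804398000) * a ^ 2 * b ^ 4)
      + A ^ 10 * B ^ 10 * ((-1848483780) * a ^ 4 * b ^ 2 + (-1848483780) * a ^ 2 * b ^ 4)
      + A ^ 11 * B ^ 9 * ((16804398000) * a ^ 4 * b ^ 2)
      + A ^ 12 * B ^ 8 * ((-56714843250) * a ^ 4 * b ^ 2)
      + A ^ 13 * B ^ 7 * ((93070512000) * a ^ 4 * b ^ 2)
      + A ^ 14 * B ^ 6 * ((-81436698000) * a ^ 4 * b ^ 2)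
      + A ^ 15 * B ^ 5 * ((-1706292720) * a ^ 5 * b ^ 1 + (39089615040) * a ^ 4 * b ^ 2)
      + A ^ 16 * B ^ 4 * ((5332164750) * a ^ 5 * b ^ 1 + (-10179587250) * a ^ 4 * b ^ 2)
      + A ^ 17 * B ^ 3 * ((-5645821500) * a ^ 5 * b ^ 1 + (1368684000) * a ^ 4 * b ^ 2)
      + A ^ 18 * B ^ 2 * ((2509254000) * a ^ 5 * b ^ 1 + (-85542750) * a ^ 4 * b ^ 2)
      + A ^ 19 * B ^ 1 * ((-462231000) * a ^ 5 * b ^ 1 + (2001000) * a ^ 4 * b ^ 2)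
      + A ^ 20 * B ^ 0 * ((30045015) * a ^ 6 * b ^ 0 + (27733860) * a ^ 5 * b ^ 1 + (-10005) * a ^ 4 * b ^ 2)

set_option linter.unusedSimpArgs false in
set_option maxHeartbeats 4000000 in
theorem lineT_coeff20 (a b : R) :
    famBc (kHab a b) (kTab a b) 20 = lineT_r20 a b (kal a b) (kbe a b) := by
  simp only [famBc, kHab, kTab, lineT_r20, kal, kbe]
  ring

/-- coefficient of `t^29`. -/
def lineT_r29 (a b A B : R) : R :=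
  A ^ 0 * B ^ 29 * ((-30) * a ^ 0 * b ^ 6)
      + A ^ 4 * B ^ 25 * ((2610) * a ^ 1 * b ^ 5)
      + A ^ 5 * B ^ 24 * ((-13050) * a ^ 1 * b ^ 5)
      + A ^ 9 * B ^ 20 * ((-100050) * a ^ 2 * b ^ 4)
      + A ^ 10 * B ^ 19 * ((200100) * a ^ 2 * b ^ 4)
      + A ^ 19 * B ^ 10 * ((-200100) * a ^ 4 * b ^ 2)
      + A ^ 20 * B ^ 9 * ((100050) * a ^ 4 * b ^ 2)
      + A ^ 24 * B ^ 5 * ((-13050) * a ^ 5 * b ^ 1)
      + A ^ 25 * B ^ 4 * ((2610) * a ^ 5 * b ^ 1)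
      + A ^ 29 * B ^ 0 * ((30) * a ^ 6 * b ^ 0)

set_option linter.unusedSimpArgs false in
set_option maxHeartbeats 4000000 in
theorem lineT_coeff29 (a b : R) :
    famBc (kHab a b) (kTab a b) 29 = lineT_r29 a b (kal a b) (kbe a b) := by
  simp only [famBc, kHab, kTab, lineT_r29, kal, kbe]
  ring

end Fermat.Agent.S52
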