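import Fermat.Agent.S52.Klein.LineT2

/-!
# S52, K1: coefficients for `kT_line`, part 3 (generated identities in two variables)
-/

set_option autoImplicit false

namespace Fermat.Agent.S52

variable {R : Type*} [CommRing R]

/-- coefficient of `t^4`. -/
def lineT_r4 (a b A B : R) : R :=
  A ^ 0 * B ^ 4 * ((27405) * a ^ 0 * b ^ 6 + (2610) * a ^ 5 * b ^ 1 + (-6603300) * a ^ 1 * b ^ 5 + (-2101050) * a ^ 4 * b ^ 2 + (-48474225) * a ^ 2 * b ^ 4)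
      + A ^ 1 * B ^ 3 * ((-130500) * a ^ 5 * b ^ 1 + (6003000) * a ^ 1 * b ^ 5 + (24012000) * a ^ 4 * b ^ 2 + (114057000) * a ^ 2 * b ^ 4)
      + A ^ 2 * B ^ 2 * ((1566000) * a ^ 5 * b ^ 1 + (-1566000) * a ^ 1 * b ^ 5 + (-85542750) * a ^ 4 * b ^ 2 + (-85542750) * a ^ 2 * b ^ 4)
      + A ^ 3 * B ^ 1 * ((-6003000) * a ^ 5 * b ^ 1 + (130500) * a ^ 1 * b ^ 5 + (114057000) * a ^ 4 * b ^ 2 + (24012000) * a ^ 2 * b ^ 4)
      + A ^ 4 * B ^ 0 * ((27405) * a ^ 6 * b ^ 0 + (6603300) * a ^ 5 * b ^ 1 + (-2610) * a ^ 1 * b ^ 5 + (-48474225) * a ^ 4 * b ^ 2 + (-2101050) * a ^ 2 * b ^ 4)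

set_option linter.unusedSimpArgs false in
set_option maxHeartbeats 4000000 in
theorem lineT_coeff4 (a b : R) :
    famBc (kHab a b) (kTab a b) 4 = lineT_r4 a b (kal a b) (kbe a b) := by
  simp only [famBc, kHab, kTab, lineT_r4, kal, kbe]
  ring

/-- coefficient of `t^9`. -/
def lineT_r9 (a b A B : R) : R :=
  A ^ 0 * B ^ 9 * ((-14307150) * a ^ 0 * b ^ 6 + (1066432950) * a ^ 1 * b ^ 5 + (100050) * a ^ 4 * b ^ 2 + (1680439800) * a ^ 2 * b ^ 4)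
      + A ^ 1 * B ^ 8 * ((-2822910750) * a ^ 1 * b ^ 5 + (-9004500) * a ^ 4 * b ^ 2 + (-12603298500) * a ^ 2 * b ^ 4)
      + A ^ 2 * B ^ 7 * ((2509254000) * a ^ 1 * b ^ 5 + (228114000) * a ^ 4 * b ^ 2 + (34901442000) * a ^ 2 * b ^ 4)
      + A ^ 3 * B ^ 6 * ((-924462000) * a ^ 1 * b ^ 5 + (-2395197000) * a ^ 4 * b ^ 2 + (-46535256000) * a ^ 2 * b ^ 4)
      + A ^ 4 * B ^ 5 * ((-6603300) * a ^ 5 * b ^ 1 + (138669300) * a ^ 1 * b ^ 5 + (12215504700) * a ^ 4 * b ^ 2 + (32574679200) * a ^ 2 * b ^ 4)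
      + A ^ 5 * B ^ 4 * ((138669300) * a ^ 5 * b ^ 1 + (-6603300) * a ^ 1 * b ^ 5 + (-32574679200) * a ^ 4 * b ^ 2 + (-12215504700) * a ^ 2 * b ^ 4)
      + A ^ 6 * B ^ 3 * ((-924462000) * a ^ 5 * b ^ 1 + (46535256000) * a ^ 4 * b ^ 2 + (2395197000) * a ^ 2 * b ^ 4)
      + A ^ 7 * B ^ 2 * ((2509254000) * a ^ 5 * b ^ 1 + (-34901442000) * a ^ 4 * b ^ 2 + (-228114000) * a ^ 2 * b ^ 4)
      + A ^ 8 * B ^ 1 * ((-2822910750) * a ^ 5 * b ^ 1 + (12603298500) * a ^ 4 * b ^ 2 + (9004500) * a ^ 2 * b ^ 4)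
      + A ^ 9 * B ^ 0 * ((14307150) * a ^ 6 * b ^ 0 + (1066432950) * a ^ 5 * b ^ 1 + (-1680439800) * a ^ 4 * b ^ 2 + (-100050) * a ^ 2 * b ^ 4)

set_option linter.unusedSimpArgs false in
set_option maxHeartbeats 4000000 in
theorem lineT_coeff9 (a b : R) :
    famBc (kHab a b) (kTab a b) 9 = lineT_r9 a b (kal a b) (kbe a b) := by
  simp only [famBc, kHab, kTab, lineT_r9, kal, kbe]
  ring

/-- coefficient of `t^16`. -/
def lineT_r16 (a b A B : R) : R :=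
  A ^ 0 * B ^ 16 * ((145422675) * a ^ 0 * b ^ 6 + (-1066432950) * a ^ 1 * b ^ 5 + (-48474225) * a ^ 2 * b ^ 4)
      + A ^ 1 * B ^ 15 * ((8531463600) * a ^ 1 * b ^ 5 + (1551175200) * a ^ 2 * b ^ 4)
      + A ^ 2 * B ^ 14 * ((-23267628000) * a ^ 1 * b ^ 5 + (-17450721000) * a ^ 2 * b ^ 4)
      + A ^ 3 * B ^ 13 * ((27145566000) * a ^ 1 * b ^ 5 + (93070512000) * a ^ 2 * b ^ 4)
      + A ^ 4 * B ^ 12 * ((-13572783000) * a ^ 1 * b ^ 5 + (-264669268500) * a ^ 2 * b ^ 4)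
      + A ^ 5 * B ^ 11 * ((2326762800) * a ^ 1 * b ^ 5 + (423470829600) * a ^ 2 * b ^ 4)
      + A ^ 6 * B ^ 10 * ((-387793800) * a ^ 4 * b ^ 2 + (-388181593800) * a ^ 2 * b ^ 4)
      + A ^ 7 * B ^ 9 * ((7755876000) * a ^ 4 * b ^ 2 + (201652776000) * a ^ 2 * b ^ 4)
      + A ^ 8 * B ^ 8 * ((-56714843250) * a ^ 4 * b ^ 2 + (-56714843250) * a ^ 2 * b ^ 4)
      + A ^ 9 * B ^ 7 * ((201652776000) * a ^ 4 * b ^ 2 + (7755876000) * a ^ 2 * b ^ 4)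
      + A ^ 10 * B ^ 6 * ((-388181593800) * a ^ 4 * b ^ 2 + (-387793800) * a ^ 2 * b ^ 4)
      + A ^ 11 * B ^ 5 * ((-2326762800) * a ^ 5 * b ^ 1 + (423470829600) * a ^ 4 * b ^ 2)
      + A ^ 12 * B ^ 4 * ((13572783000) * a ^ 5 * b ^ 1 + (-264669268500) * a ^ 4 * b ^ 2)
      + A ^ 13 * B ^ 3 * ((-27145566000) * a ^ 5 * b ^ 1 + (93070512000) * a ^ 4 * b ^ 2)
      + A ^ 14 * B ^ 2 * ((23267628000) * a ^ 5 * b ^ 1 + (-17450721000) * a ^ 4 * b ^ 2)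
      + A ^ 15 * B ^ 1 * ((-8531463600) * a ^ 5 * b ^ 1 + (1551175200) * a ^ 4 * b ^ 2)
      + A ^ 16 * B ^ 0 * ((145422675) * a ^ 6 * b ^ 0 + (1066432950) * a ^ 5 * b ^ 1 + (-48474225) * a ^ 4 * b ^ 2)

set_option linter.unusedSimpArgs false in
set_option maxHeartbeats 4000000 in
theorem lineT_coeff16 (a b : R) :
    famBc (kHab a b) (kTab a b) 16 = lineT_r16 a b (kal a b) (kbe a b) := by
  simp only [famBc, kHab, kTab, lineT_r16, kal, kbe]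
  ring

/-- coefficient of `t^21`. -/
def lineT_r21 (a b A B : R) : R :=
  A ^ 0 * B ^ 21 * ((-14307150) * a ^ 0 * b ^ 6 + (6603300) * a ^ 1 * b ^ 5)
      + A ^ 1 * B ^ 20 * ((-138669300) * a ^ 1 * b ^ 5 + (-100050) * a ^ 2 * b ^ 4)
      + A ^ 2 * B ^ 19 * ((924462000) * a ^ 1 * b ^ 5 + (9004500) * a ^ 2 * b ^ 4)
      + A ^ 3 * B ^ 18 * ((-2509254000) * a ^ 1 * b ^ 5 + (-228114000) * a ^ 2 * b ^ 4)
      + A ^ 4 * B ^ 17 * ((2822910750) * a ^ 1 * b ^ 5 + (2395197000) * a ^ 2 * b ^ 4)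
      + A ^ 5 * B ^ 16 * ((-1066432950) * a ^ 1 * b ^ 5 + (-12215504700) * a ^ 2 * b ^ 4)
      + A ^ 6 * B ^ 15 * ((32574679200) * a ^ 2 * b ^ 4)
      + A ^ 7 * B ^ 14 * ((-46535256000) * a ^ 2 * b ^ 4)
      + A ^ 8 * B ^ 13 * ((34901442000) * a ^ 2 * b ^ 4)
      + A ^ 9 * B ^ 12 * ((-12603298500) * a ^ 2 * b ^ 4)
      + A ^ 10 * B ^ 11 * ((1680439800) * a ^ 2 * b ^ 4)
      + A ^ 11 * B ^ 10 * ((-1680439800) * a ^ 4 * b ^ 2)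
      + A ^ 12 * B ^ 9 * ((12603298500) * a ^ 4 * b ^ 2)
      + A ^ 13 * B ^ 8 * ((-34901442000) * a ^ 4 * b ^ 2)
      + A ^ 14 * B ^ 7 * ((46535256000) * a ^ 4 * b ^ 2)
      + A ^ 15 * B ^ 6 * ((-32574679200) * a ^ 4 * b ^ 2)
      + A ^ 16 * B ^ 5 * ((-1066432950) * a ^ 5 * b ^ 1 + (12215504700) * a ^ 4 * b ^ 2)
      + A ^ 17 * B ^ 4 * ((2822910750) * a ^ 5 * b ^ 1 + (-2395197000) * a ^ 4 * b ^ 2)
      + A ^ 18 * B ^ 3 * ((-2509254000) * a ^ 5 * b ^ 1 + (228114000) * a ^ 4 * b ^ 2)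
      + A ^ 19 * B ^ 2 * ((924462000) * a ^ 5 * b ^ 1 + (-9004500) * a ^ 4 * b ^ 2)
      + A ^ 20 * B ^ 1 * ((-138669300) * a ^ 5 * b ^ 1 + (100050) * a ^ 4 * b ^ 2)
      + A ^ 21 * B ^ 0 * ((14307150) * a ^ 6 * b ^ 0 + (6603300) * a ^ 5 * b ^ 1)

set_option linter.unusedSimpArgs false in
set_option maxHeartbeats 4000000 in
theorem lineT_coeff21 (a b : R) :
    famBc (kHab a b) (kTab a b) 21 = lineT_r21 a b (kal a b) (kbe a b) := by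
  simp only [famBc, kHab, kTab, lineT_r21, kal, kbe]
  ring

/-- coefficient of `t^28`. -/
def lineT_r28 (a b A B : R) : R :=
  A ^ 0 * B ^ 28 * ((435) * a ^ 0 * b ^ 6)
      + A ^ 3 * B ^ 25 * ((5220) * a ^ 1 * b ^ 5)
      + A ^ 4 * B ^ 24 * ((-65250) * a ^ 1 * b ^ 5)
      + A ^ 5 * B ^ 23 * ((156600) * a ^ 1 * b ^ 5)
      + A ^ 8 * B ^ 20 * ((-450225) * a ^ 2 * b ^ 4)
      + A ^ 9 * B ^ 19 * ((2001000) * a ^ 2 * b ^ 4)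
      + A ^ 10 * B ^ 18 * ((-1900950) * a ^ 2 * b ^ 4)
      + A ^ 18 * B ^ 10 * ((-1900950) * a ^ 4 * b ^ 2)
      + A ^ 19 * B ^ 9 * ((2001000) * a ^ 4 * b ^ 2)
      + A ^ 20 * B ^ 8 * ((-450225) * a ^ 4 * b ^ 2)
      + A ^ 23 * B ^ 5 * ((-156600) * a ^ 5 * b ^ 1)
      + A ^ 24 * B ^ 4 * ((65250) * a ^ 5 * b ^ 1)
      + A ^ 25 * B ^ 3 * ((-5220) * a ^ 5 * b ^ 1)
      + A ^ 28 * B ^ 0 * ((435) * a ^ 6 * b ^ 0)

set_option linter.unusedSimpArgs false in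
set_option maxHeartbeats 4000000 in
theorem lineT_coeff28 (a b : R) :
    famBc (kHab a b) (kTab a b) 28 = lineT_r28 a b (kal a b) (kbe a b) := by
  simp only [famBc, kHab, kTab, lineT_r28, kal, kbe]
  ring

end Fermat.Agent.S52
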