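import Fermat.Agent.S52.Klein.AB

/-!
# S52, K1: coefficients for `kT_line`, part 4 (generated identities in two variables)
-/

set_option autoImplicit false

namespace Fermat.Agent.S52

variable {R : Type*} [CommRing R]

/-- coefficient of `t^3`. -/
def lineT_r3 (a b A B : R) : R :=
  A ^ 0 * B ^ 3 * ((-4060) * a ^ 0 * b ^ 6 + (-5220) * a ^ 5 * b ^ 1 + (1200600) * a ^ 1 * b ^ 5 + (1200600) * a ^ 4 * b ^ 2 + (11405700) * a ^ 2 * b ^ 4)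
      + A ^ 1 * B ^ 2 * ((130500) * a ^ 5 * b ^ 1 + (-783000) * a ^ 1 * b ^ 5 + (-9004500) * a ^ 4 * b ^ 2 + (-19009500) * a ^ 2 * b ^ 4)
      + A ^ 2 * B ^ 1 * ((-783000) * a ^ 5 * b ^ 1 + (130500) * a ^ 1 * b ^ 5 + (19009500) * a ^ 4 * b ^ 2 + (9004500) * a ^ 2 * b ^ 4)
      + A ^ 3 * B ^ 0 * ((4060) * a ^ 6 * b ^ 0 + (1200600) * a ^ 5 * b ^ 1 + (-5220) * a ^ 1 * b ^ 5 + (-11405700) * a ^ 4 * b ^ 2 + (-1200600) * a ^ 2 * b ^ 4)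

set_option linter.unusedSimpArgs false in
set_option maxHeartbeats 4000000 in
theorem lineT_coeff3 (a b : R) :
    famBc (kHab a b) (kTab a b) 3 = lineT_r3 a b (kal a b) (kbe a b) := by
  simp only [famBc, kHab, kTab, lineT_r3, kal, kbe]
  ring

/-- coefficient of `t^10`. -/
def lineT_r10 (a b A B : R) : R :=
  A ^ 0 * B ^ 10 * ((30045015) * a ^ 0 * b ^ 6 + (-1706292720) * a ^ 1 * b ^ 5 + (-10005) * a ^ 4 * b ^ 2 + (-1848483780) * a ^ 2 * b ^ 4)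
      + A ^ 1 * B ^ 9 * ((5332164750) * a ^ 1 * b ^ 5 + (2001000) * a ^ 4 * b ^ 2 + (16804398000) * a ^ 2 * b ^ 4)
      + A ^ 2 * B ^ 8 * ((-5645821500) * a ^ 1 * b ^ 5 + (-85542750) * a ^ 4 * b ^ 2 + (-56714843250) * a ^ 2 * b ^ 4)
      + A ^ 3 * B ^ 7 * ((2509254000) * a ^ 1 * b ^ 5 + (1368684000) * a ^ 4 * b ^ 2 + (93070512000) * a ^ 2 * b ^ 4)
      + A ^ 4 * B ^ 6 * ((-462231000) * a ^ 1 * b ^ 5 + (-10179587250) * a ^ 4 * b ^ 2 + (-81436698000) * a ^ 2 * b ^ 4)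
      + A ^ 5 * B ^ 5 * ((-27733860) * a ^ 5 * b ^ 1 + (27733860) * a ^ 1 * b ^ 5 + (39089615040) * a ^ 4 * b ^ 2 + (39089615040) * a ^ 2 * b ^ 4)
      + A ^ 6 * B ^ 4 * ((462231000) * a ^ 5 * b ^ 1 + (-81436698000) * a ^ 4 * b ^ 2 + (-10179587250) * a ^ 2 * b ^ 4)
      + A ^ 7 * B ^ 3 * ((-2509254000) * a ^ 5 * b ^ 1 + (93070512000) * a ^ 4 * b ^ 2 + (1368684000) * a ^ 2 * b ^ 4)
      + A ^ 8 * B ^ 2 * ((5645821500) * a ^ 5 * b ^ 1 + (-56714843250) * a ^ 4 * b ^ 2 + (-85542750) * a ^ 2 * b ^ 4)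
      + A ^ 9 * B ^ 1 * ((-5332164750) * a ^ 5 * b ^ 1 + (16804398000) * a ^ 4 * b ^ 2 + (2001000) * a ^ 2 * b ^ 4)
      + A ^ 10 * B ^ 0 * ((30045015) * a ^ 6 * b ^ 0 + (1706292720) * a ^ 5 * b ^ 1 + (-1848483780) * a ^ 4 * b ^ 2 + (-10005) * a ^ 2 * b ^ 4)

set_option linter.unusedSimpArgs false in
set_option maxHeartbeats 4000000 in
theorem lineT_coeff10 (a b : R) :
    famBc (kHab a b) (kTab a b) 10 = lineT_r10 a b (kal a b) (kbe a b) := by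
  simp only [famBc, kHab, kTab, lineT_r10, kal, kbe]
  ring

/-- coefficient of `t^15`. -/
def lineT_r15 (a b A B : R) : R :=
  A ^ 0 * B ^ 15 * ((-155117520) * a ^ 0 * b ^ 6 + (1706292720) * a ^ 1 * b ^ 5 + (155117520) * a ^ 2 * b ^ 4)
      + A ^ 1 * B ^ 14 * ((-11633814000) * a ^ 1 * b ^ 5 + (-3877938000) * a ^ 2 * b ^ 4)
      + A ^ 2 * B ^ 13 * ((27145566000) * a ^ 1 * b ^ 5 + (34901442000) * a ^ 2 * b ^ 4)
      + A ^ 3 * B ^ 12 * ((-27145566000) * a ^ 1 * b ^ 5 + (-151239582000) * a ^ 2 * b ^ 4)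
      + A ^ 4 * B ^ 11 * ((11633814000) * a ^ 1 * b ^ 5 + (352892358000) * a ^ 2 * b ^ 4)
      + A ^ 5 * B ^ 10 * ((-1706292720) * a ^ 1 * b ^ 5 + (-155117520) * a ^ 4 * b ^ 2 + (-465817912560) * a ^ 2 * b ^ 4)
      + A ^ 6 * B ^ 9 * ((3877938000) * a ^ 4 * b ^ 2 + (352892358000) * a ^ 2 * b ^ 4)
      + A ^ 7 * B ^ 8 * ((-34901442000) * a ^ 4 * b ^ 2 + (-151239582000) * a ^ 2 * b ^ 4)
      + A ^ 8 * B ^ 7 * ((151239582000) * a ^ 4 * b ^ 2 + (34901442000) * a ^ 2 * b ^ 4)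
      + A ^ 9 * B ^ 6 * ((-352892358000) * a ^ 4 * b ^ 2 + (-3877938000) * a ^ 2 * b ^ 4)
      + A ^ 10 * B ^ 5 * ((-1706292720) * a ^ 5 * b ^ 1 + (465817912560) * a ^ 4 * b ^ 2 + (155117520) * a ^ 2 * b ^ 4)
      + A ^ 11 * B ^ 4 * ((11633814000) * a ^ 5 * b ^ 1 + (-352892358000) * a ^ 4 * b ^ 2)
      + A ^ 12 * B ^ 3 * ((-27145566000) * a ^ 5 * b ^ 1 + (151239582000) * a ^ 4 * b ^ 2)
      + A ^ 13 * B ^ 2 * ((27145566000) * a ^ 5 * b ^ 1 + (-34901442000) * a ^ 4 * b ^ 2)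
      + A ^ 14 * B ^ 1 * ((-11633814000) * a ^ 5 * b ^ 1 + (3877938000) * a ^ 4 * b ^ 2)
      + A ^ 15 * B ^ 0 * ((155117520) * a ^ 6 * b ^ 0 + (1706292720) * a ^ 5 * b ^ 1 + (-155117520) * a ^ 4 * b ^ 2)

set_option linter.unusedSimpArgs false in
set_option maxHeartbeats 4000000 in
theorem lineT_coeff15 (a b : R) :
    famBc (kHab a b) (kTab a b) 15 = lineT_r15 a b (kal a b) (kbe a b) := by
  simp only [famBc, kHab, kTab, lineT_r15, kal, kbe]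
  ring

/-- coefficient of `t^22`. -/
def lineT_r22 (a b A B : R) : R :=
  A ^ 0 * B ^ 22 * ((5852925) * a ^ 0 * b ^ 6 + (-1200600) * a ^ 1 * b ^ 5)
      + A ^ 1 * B ^ 21 * ((33016500) * a ^ 1 * b ^ 5)
      + A ^ 2 * B ^ 20 * ((-277338600) * a ^ 1 * b ^ 5 + (-450225) * a ^ 2 * b ^ 4)
      + A ^ 3 * B ^ 19 * ((924462000) * a ^ 1 * b ^ 5 + (24012000) * a ^ 2 * b ^ 4)
      + A ^ 4 * B ^ 18 * ((-1254627000) * a ^ 1 * b ^ 5 + (-399199500) * a ^ 2 * b ^ 4)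
      + A ^ 5 * B ^ 17 * ((564582150) * a ^ 1 * b ^ 5 + (2874236400) * a ^ 2 * b ^ 4)
      + A ^ 6 * B ^ 16 * ((-10179587250) * a ^ 2 * b ^ 4)
      + A ^ 7 * B ^ 15 * ((18614102400) * a ^ 2 * b ^ 4)
      + A ^ 8 * B ^ 14 * ((-17450721000) * a ^ 2 * b ^ 4)
      + A ^ 9 * B ^ 13 * ((7755876000) * a ^ 2 * b ^ 4)
      + A ^ 10 * B ^ 12 * ((-1260329850) * a ^ 2 * b ^ 4)
      + A ^ 12 * B ^ 10 * ((-1260329850) * a ^ 4 * b ^ 2)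
      + A ^ 13 * B ^ 9 * ((7755876000) * a ^ 4 * b ^ 2)
      + A ^ 14 * B ^ 8 * ((-17450721000) * a ^ 4 * b ^ 2)
      + A ^ 15 * B ^ 7 * ((18614102400) * a ^ 4 * b ^ 2)
      + A ^ 16 * B ^ 6 * ((-10179587250) * a ^ 4 * b ^ 2)
      + A ^ 17 * B ^ 5 * ((-564582150) * a ^ 5 * b ^ 1 + (2874236400) * a ^ 4 * b ^ 2)
      + A ^ 18 * B ^ 4 * ((1254627000) * a ^ 5 * b ^ 1 + (-399199500) * a ^ 4 * b ^ 2)
      + A ^ 19 * B ^ 3 * ((-924462000) * a ^ 5 * b ^ 1 + (24012000) * a ^ 4 * b ^ 2)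
      + A ^ 20 * B ^ 2 * ((277338600) * a ^ 5 * b ^ 1 + (-450225) * a ^ 4 * b ^ 2)
      + A ^ 21 * B ^ 1 * ((-33016500) * a ^ 5 * b ^ 1)
      + A ^ 22 * B ^ 0 * ((5852925) * a ^ 6 * b ^ 0 + (1200600) * a ^ 5 * b ^ 1)

set_option linter.unusedSimpArgs false in
set_option maxHeartbeats 4000000 in
theorem lineT_coeff22 (a b : R) :
    famBc (kHab a b) (kTab a b) 22 = lineT_r22 a b (kal a b) (kbe a b) := by
  simp only [famBc, kHab, kTab, lineT_r22, kal, kbe]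
  ring

/-- coefficient of `t^27`. -/
def lineT_r27 (a b A B : R) : R :=
  A ^ 0 * B ^ 27 * ((-4060) * a ^ 0 * b ^ 6)
      + A ^ 2 * B ^ 25 * ((5220) * a ^ 1 * b ^ 5)
      + A ^ 3 * B ^ 24 * ((-130500) * a ^ 1 * b ^ 5)
      + A ^ 4 * B ^ 23 * ((783000) * a ^ 1 * b ^ 5)
      + A ^ 5 * B ^ 22 * ((-1200600) * a ^ 1 * b ^ 5)
      + A ^ 7 * B ^ 20 * ((-1200600) * a ^ 2 * b ^ 4)
      + A ^ 8 * B ^ 19 * ((9004500) * a ^ 2 * b ^ 4)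
      + A ^ 9 * B ^ 18 * ((-19009500) * a ^ 2 * b ^ 4)
      + A ^ 10 * B ^ 17 * ((11405700) * a ^ 2 * b ^ 4)
      + A ^ 17 * B ^ 10 * ((-11405700) * a ^ 4 * b ^ 2)
      + A ^ 18 * B ^ 9 * ((19009500) * a ^ 4 * b ^ 2)
      + A ^ 19 * B ^ 8 * ((-9004500) * a ^ 4 * b ^ 2)
      + A ^ 20 * B ^ 7 * ((1200600) * a ^ 4 * b ^ 2)
      + A ^ 22 * B ^ 5 * ((-1200600) * a ^ 5 * b ^ 1)
      + A ^ 23 * B ^ 4 * ((783000) * a ^ 5 * b ^ 1)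
      + A ^ 24 * B ^ 3 * ((-130500) * a ^ 5 * b ^ 1)
      + A ^ 25 * B ^ 2 * ((5220) * a ^ 5 * b ^ 1)
      + A ^ 27 * B ^ 0 * ((4060) * a ^ 6 * b ^ 0)

set_option linter.unusedSimpArgs false in
set_option maxHeartbeats 4000000 in
theorem lineT_coeff27 (a b : R) :
    famBc (kHab a b) (kTab a b) 27 = lineT_r27 a b (kal a b) (kbe a b) := by
  simp only [famBc, kHab, kTab, lineT_r27, kal, kbe]
  ring

end Fermat.Agent.S52
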