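import Fermat.Agent.S52.Klein.LineT4

/-!
# S52, K1: coefficients for `kT_line`, part 5 (generated identities in two variables)
-/

set_option autoImplicit false

namespace Fermat.Agent.S52

variable {R : Type*} [CommRing R]

/-- coefficient of `t^2`. -/
def lineT_r2 (a b A B : R) : R :=
  A ^ 0 * B ^ 2 * ((435) * a ^ 0 * b ^ 6 + (5220) * a ^ 5 * b ^ 1 + (-156600) * a ^ 1 * b ^ 5 + (-450225) * a ^ 4 * b ^ 2 + (-1900950) * a ^ 2 * b ^ 4)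
      + A ^ 1 * B ^ 1 * ((-65250) * a ^ 5 * b ^ 1 + (65250) * a ^ 1 * b ^ 5 + (2001000) * a ^ 4 * b ^ 2 + (2001000) * a ^ 2 * b ^ 4)
      + A ^ 2 * B ^ 0 * ((435) * a ^ 6 * b ^ 0 + (156600) * a ^ 5 * b ^ 1 + (-5220) * a ^ 1 * b ^ 5 + (-1900950) * a ^ 4 * b ^ 2 + (-450225) * a ^ 2 * b ^ 4)

set_option linter.unusedSimpArgs false in
set_option maxHeartbeats 4000000 in
theorem lineT_coeff2 (a b : R) :
    famBc (kHab a b) (kTab a b) 2 = lineT_r2 a b (kal a b) (kbe a b) := by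
  simp only [famBc, kHab, kTab, lineT_r2, kal, kbe]
  ring

/-- coefficient of `t^11`. -/
def lineT_r11 (a b A B : R) : R :=
  A ^ 0 * B ^ 11 * ((-54627300) * a ^ 0 * b ^ 6 + (2326762800) * a ^ 1 * b ^ 5 + (1680439800) * a ^ 2 * b ^ 4)
      + A ^ 1 * B ^ 10 * ((-8531463600) * a ^ 1 * b ^ 5 + (-200100) * a ^ 4 * b ^ 2 + (-18484837800) * a ^ 2 * b ^ 4)
      + A ^ 2 * B ^ 9 * ((10664329500) * a ^ 1 * b ^ 5 + (19009500) * a ^ 4 * b ^ 2 + (75619791000) * a ^ 2 * b ^ 4)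
      + A ^ 3 * B ^ 8 * ((-5645821500) * a ^ 1 * b ^ 5 + (-513256500) * a ^ 4 * b ^ 2 + (-151239582000) * a ^ 2 * b ^ 4)
      + A ^ 4 * B ^ 7 * ((1254627000) * a ^ 1 * b ^ 5 + (5816907000) * a ^ 4 * b ^ 2 + (162873396000) * a ^ 2 * b ^ 4)
      + A ^ 5 * B ^ 6 * ((-92446200) * a ^ 1 * b ^ 5 + (-32574679200) * a ^ 4 * b ^ 2 + (-97724037600) * a ^ 2 * b ^ 4)
      + A ^ 6 * B ^ 5 * ((-92446200) * a ^ 5 * b ^ 1 + (97724037600) * a ^ 4 * b ^ 2 + (32574679200) * a ^ 2 * b ^ 4)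
      + A ^ 7 * B ^ 4 * ((1254627000) * a ^ 5 * b ^ 1 + (-162873396000) * a ^ 4 * b ^ 2 + (-5816907000) * a ^ 2 * b ^ 4)
      + A ^ 8 * B ^ 3 * ((-5645821500) * a ^ 5 * b ^ 1 + (151239582000) * a ^ 4 * b ^ 2 + (513256500) * a ^ 2 * b ^ 4)
      + A ^ 9 * B ^ 2 * ((10664329500) * a ^ 5 * b ^ 1 + (-75619791000) * a ^ 4 * b ^ 2 + (-19009500) * a ^ 2 * b ^ 4)
      + A ^ 10 * B ^ 1 * ((-8531463600) * a ^ 5 * b ^ 1 + (18484837800) * a ^ 4 * b ^ 2 + (200100) * a ^ 2 * b ^ 4)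
      + A ^ 11 * B ^ 0 * ((54627300) * a ^ 6 * b ^ 0 + (2326762800) * a ^ 5 * b ^ 1 + (-1680439800) * a ^ 4 * b ^ 2)

set_option linter.unusedSimpArgs false in
set_option maxHeartbeats 4000000 in
theorem lineT_coeff11 (a b : R) :
    famBc (kHab a b) (kTab a b) 11 = lineT_r11 a b (kal a b) (kbe a b) := by
  simp only [famBc, kHab, kTab, lineT_r11, kal, kbe]
  ring

/-- coefficient of `t^14`. -/
def lineT_r14 (a b A B : R) : R :=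
  A ^ 0 * B ^ 14 * ((145422675) * a ^ 0 * b ^ 6 + (-2326762800) * a ^ 1 * b ^ 5 + (-387793800) * a ^ 2 * b ^ 4)
      + A ^ 1 * B ^ 13 * ((13572783000) * a ^ 1 * b ^ 5 + (7755876000) * a ^ 2 * b ^ 4)
      + A ^ 2 * B ^ 12 * ((-27145566000) * a ^ 1 * b ^ 5 + (-56714843250) * a ^ 2 * b ^ 4)
      + A ^ 3 * B ^ 11 * ((23267628000) * a ^ 1 * b ^ 5 + (201652776000) * a ^ 2 * b ^ 4)
      + A ^ 4 * B ^ 10 * ((-8531463600) * a ^ 1 * b ^ 5 + (-48474225) * a ^ 4 * b ^ 2 + (-388181593800) * a ^ 2 * b ^ 4)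
      + A ^ 5 * B ^ 9 * ((1066432950) * a ^ 1 * b ^ 5 + (1551175200) * a ^ 4 * b ^ 2 + (423470829600) * a ^ 2 * b ^ 4)
      + A ^ 6 * B ^ 8 * ((-17450721000) * a ^ 4 * b ^ 2 + (-264669268500) * a ^ 2 * b ^ 4)
      + A ^ 7 * B ^ 7 * ((93070512000) * a ^ 4 * b ^ 2 + (93070512000) * a ^ 2 * b ^ 4)
      + A ^ 8 * B ^ 6 * ((-264669268500) * a ^ 4 * b ^ 2 + (-17450721000) * a ^ 2 * b ^ 4)
      + A ^ 9 * B ^ 5 * ((-1066432950) * a ^ 5 * b ^ 1 + (423470829600) * a ^ 4 * b ^ 2 + (1551175200) * a ^ 2 * b ^ 4)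
      + A ^ 10 * B ^ 4 * ((8531463600) * a ^ 5 * b ^ 1 + (-388181593800) * a ^ 4 * b ^ 2 + (-48474225) * a ^ 2 * b ^ 4)
      + A ^ 11 * B ^ 3 * ((-23267628000) * a ^ 5 * b ^ 1 + (201652776000) * a ^ 4 * b ^ 2)
      + A ^ 12 * B ^ 2 * ((27145566000) * a ^ 5 * b ^ 1 + (-56714843250) * a ^ 4 * b ^ 2)
      + A ^ 13 * B ^ 1 * ((-13572783000) * a ^ 5 * b ^ 1 + (7755876000) * a ^ 4 * b ^ 2)
      + A ^ 14 * B ^ 0 * ((145422675) * a ^ 6 * b ^ 0 + (2326762800) * a ^ 5 * b ^ 1 + (-387793800) * a ^ 4 * b ^ 2)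

set_option linter.unusedSimpArgs false in
set_option maxHeartbeats 4000000 in
theorem lineT_coeff14 (a b : R) :
    famBc (kHab a b) (kTab a b) 14 = lineT_r14 a b (kal a b) (kbe a b) := by
  simp only [famBc, kHab, kTab, lineT_r14, kal, kbe]
  ring

/-- coefficient of `t^23`. -/
def lineT_r23 (a b A B : R) : R :=
  A ^ 0 * B ^ 23 * ((-2035800) * a ^ 0 * b ^ 6 + (156600) * a ^ 1 * b ^ 5)
      + A ^ 1 * B ^ 22 * ((-6003000) * a ^ 1 * b ^ 5)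
      + A ^ 2 * B ^ 21 * ((66033000) * a ^ 1 * b ^ 5)
      + A ^ 3 * B ^ 20 * ((-277338600) * a ^ 1 * b ^ 5 + (-1200600) * a ^ 2 * b ^ 4)
      + A ^ 4 * B ^ 19 * ((462231000) * a ^ 1 * b ^ 5 + (42021000) * a ^ 2 * b ^ 4)
      + A ^ 5 * B ^ 18 * ((-250925400) * a ^ 1 * b ^ 5 + (-479039400) * a ^ 2 * b ^ 4)
      + A ^ 6 * B ^ 17 * ((2395197000) * a ^ 2 * b ^ 4)
      + A ^ 7 * B ^ 16 * ((-5816907000) * a ^ 2 * b ^ 4)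
      + A ^ 8 * B ^ 15 * ((6980288400) * a ^ 2 * b ^ 4)
      + A ^ 9 * B ^ 14 * ((-3877938000) * a ^ 2 * b ^ 4)
      + A ^ 10 * B ^ 13 * ((775587600) * a ^ 2 * b ^ 4)
      + A ^ 13 * B ^ 10 * ((-775587600) * a ^ 4 * b ^ 2)
      + A ^ 14 * B ^ 9 * ((3877938000) * a ^ 4 * b ^ 2)
      + A ^ 15 * B ^ 8 * ((-6980288400) * a ^ 4 * b ^ 2)
      + A ^ 16 * B ^ 7 * ((5816907000) * a ^ 4 * b ^ 2)
      + A ^ 17 * B ^ 6 * ((-2395197000) * a ^ 4 * b ^ 2)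
      + A ^ 18 * B ^ 5 * ((-250925400) * a ^ 5 * b ^ 1 + (479039400) * a ^ 4 * b ^ 2)
      + A ^ 19 * B ^ 4 * ((462231000) * a ^ 5 * b ^ 1 + (-42021000) * a ^ 4 * b ^ 2)
      + A ^ 20 * B ^ 3 * ((-277338600) * a ^ 5 * b ^ 1 + (1200600) * a ^ 4 * b ^ 2)
      + A ^ 21 * B ^ 2 * ((66033000) * a ^ 5 * b ^ 1)
      + A ^ 22 * B ^ 1 * ((-6003000) * a ^ 5 * b ^ 1)
      + A ^ 23 * B ^ 0 * ((2035800) * a ^ 6 * b ^ 0 + (156600) * a ^ 5 * b ^ 1)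

set_option linter.unusedSimpArgs false in
set_option maxHeartbeats 4000000 in
theorem lineT_coeff23 (a b : R) :
    famBc (kHab a b) (kTab a b) 23 = lineT_r23 a b (kal a b) (kbe a b) := by
  simp only [famBc, kHab, kTab, lineT_r23, kal, kbe]
  ring

/-- coefficient of `t^26`. -/
def lineT_r26 (a b A B : R) : R :=
  A ^ 0 * B ^ 26 * ((27405) * a ^ 0 * b ^ 6)
      + A ^ 1 * B ^ 25 * ((2610) * a ^ 1 * b ^ 5)
      + A ^ 2 * B ^ 24 * ((-130500) * a ^ 1 * b ^ 5)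
      + A ^ 3 * B ^ 23 * ((1566000) * a ^ 1 * b ^ 5)
      + A ^ 4 * B ^ 22 * ((-6003000) * a ^ 1 * b ^ 5)
      + A ^ 5 * B ^ 21 * ((6603300) * a ^ 1 * b ^ 5)
      + A ^ 6 * B ^ 20 * ((-2101050) * a ^ 2 * b ^ 4)
      + A ^ 7 * B ^ 19 * ((24012000) * a ^ 2 * b ^ 4)
      + A ^ 8 * B ^ 18 * ((-85542750) * a ^ 2 * b ^ 4)
      + A ^ 9 * B ^ 17 * ((114057000) * a ^ 2 * b ^ 4)
      + A ^ 10 * B ^ 16 * ((-48474225) * a ^ 2 * b ^ 4)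
      + A ^ 16 * B ^ 10 * ((-48474225) * a ^ 4 * b ^ 2)
      + A ^ 17 * B ^ 9 * ((114057000) * a ^ 4 * b ^ 2)
      + A ^ 18 * B ^ 8 * ((-85542750) * a ^ 4 * b ^ 2)
      + A ^ 19 * B ^ 7 * ((24012000) * a ^ 4 * b ^ 2)
      + A ^ 20 * B ^ 6 * ((-2101050) * a ^ 4 * b ^ 2)
      + A ^ 21 * B ^ 5 * ((-6603300) * a ^ 5 * b ^ 1)
      + A ^ 22 * B ^ 4 * ((6003000) * a ^ 5 * b ^ 1)
      + A ^ 23 * B ^ 3 * ((-1566000) * a ^ 5 * b ^ 1)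
      + A ^ 24 * B ^ 2 * ((130500) * a ^ 5 * b ^ 1)
      + A ^ 25 * B ^ 1 * ((-2610) * a ^ 5 * b ^ 1)
      + A ^ 26 * B ^ 0 * ((27405) * a ^ 6 * b ^ 0)

set_option linter.unusedSimpArgs false in
set_option maxHeartbeats 4000000 in
theorem lineT_coeff26 (a b : R) :
    famBc (kHab a b) (kTab a b) 26 = lineT_r26 a b (kal a b) (kbe a b) := by
  simp only [famBc, kHab, kTab, lineT_r26, kal, kbe]
  ring

end Fermat.Agent.S52
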