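import Fermat.Agent.S52.Klein.LineT5

/-!
# S52, K1: coefficients for `kT_line`, part 6 (generated identities in two variables)
-/

set_option autoImplicit false

namespace Fermat.Agent.S52

variable {R : Type*} [CommRing R]

/-- coefficient of `t^0`. -/
def lineT_r0 (a b A B : R) : R :=
  A ^ 0 * B ^ 0 * ((1) * a ^ 6 * b ^ 0 + (1) * a ^ 0 * b ^ 6 + (522) * a ^ 5 * b ^ 1 + (-522) * a ^ 1 * b ^ 5 + (-10005) * a ^ 4 * b ^ 2 + (-10005) * a ^ 2 * b ^ 4)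

set_option linter.unusedSimpArgs false in
set_option maxHeartbeats 4000000 in
theorem lineT_coeff0 (a b : R) :
    famBc (kHab a b) (kTab a b) 0 = lineT_r0 a b (kal a b) (kbe a b) := by
  simp only [famBc, kHab, kTab, lineT_r0, kal, kbe]
  ring

/-- coefficient of `t^1`. -/
def lineT_r1 (a b A B : R) : R :=
  A ^ 0 * B ^ 1 * ((-30) * a ^ 0 * b ^ 6 + (-2610) * a ^ 5 * b ^ 1 + (13050) * a ^ 1 * b ^ 5 + (100050) * a ^ 4 * b ^ 2 + (200100) * a ^ 2 * b ^ 4)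
      + A ^ 1 * B ^ 0 * ((30) * a ^ 6 * b ^ 0 + (13050) * a ^ 5 * b ^ 1 + (-2610) * a ^ 1 * b ^ 5 + (-200100) * a ^ 4 * b ^ 2 + (-100050) * a ^ 2 * b ^ 4)

set_option linter.unusedSimpArgs false in
set_option maxHeartbeats 4000000 in
theorem lineT_coeff1 (a b : R) :
    famBc (kHab a b) (kTab a b) 1 = lineT_r1 a b (kal a b) (kbe a b) := by
  simp only [famBc, kHab, kTab, lineT_r1, kal, kbe]
  ring

/-- coefficient of `t^12`. -/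
def lineT_r12 (a b A B : R) : R :=
  A ^ 0 * B ^ 12 * ((86493225) * a ^ 0 * b ^ 6 + (-2714556600) * a ^ 1 * b ^ 5 + (-1260329850) * a ^ 2 * b ^ 4)
      + A ^ 1 * B ^ 11 * ((11633814000) * a ^ 1 * b ^ 5 + (16804398000) * a ^ 2 * b ^ 4)
      + A ^ 2 * B ^ 10 * ((-17062927200) * a ^ 1 * b ^ 5 + (-1900950) * a ^ 4 * b ^ 2 + (-83181770100) * a ^ 2 * b ^ 4)
      + A ^ 3 * B ^ 9 * ((10664329500) * a ^ 1 * b ^ 5 + (114057000) * a ^ 4 * b ^ 2 + (201652776000) * a ^ 2 * b ^ 4)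
      + A ^ 4 * B ^ 8 * ((-2822910750) * a ^ 1 * b ^ 5 + (-2181340125) * a ^ 4 * b ^ 2 + (-264669268500) * a ^ 2 * b ^ 4)
      + A ^ 5 * B ^ 7 * ((250925400) * a ^ 1 * b ^ 5 + (18614102400) * a ^ 4 * b ^ 2 + (195448075200) * a ^ 2 * b ^ 4)
      + A ^ 6 * B ^ 6 * ((-81436698000) * a ^ 4 * b ^ 2 + (-81436698000) * a ^ 2 * b ^ 4)
      + A ^ 7 * B ^ 5 * ((-250925400) * a ^ 5 * b ^ 1 + (195448075200) * a ^ 4 * b ^ 2 + (18614102400) * a ^ 2 * b ^ 4)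
      + A ^ 8 * B ^ 4 * ((2822910750) * a ^ 5 * b ^ 1 + (-264669268500) * a ^ 4 * b ^ 2 + (-2181340125) * a ^ 2 * b ^ 4)
      + A ^ 9 * B ^ 3 * ((-10664329500) * a ^ 5 * b ^ 1 + (201652776000) * a ^ 4 * b ^ 2 + (114057000) * a ^ 2 * b ^ 4)
      + A ^ 10 * B ^ 2 * ((17062927200) * a ^ 5 * b ^ 1 + (-83181770100) * a ^ 4 * b ^ 2 + (-1900950) * a ^ 2 * b ^ 4)
      + A ^ 11 * B ^ 1 * ((-11633814000) * a ^ 5 * b ^ 1 + (16804398000) * a ^ 4 * b ^ 2)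
      + A ^ 12 * B ^ 0 * ((86493225) * a ^ 6 * b ^ 0 + (2714556600) * a ^ 5 * b ^ 1 + (-1260329850) * a ^ 4 * b ^ 2)

set_option linter.unusedSimpArgs false in
set_option maxHeartbeats 4000000 in
theorem lineT_coeff12 (a b : R) :
    famBc (kHab a b) (kTab a b) 12 = lineT_r12 a b (kal a b) (kbe a b) := by
  simp only [famBc, kHab, kTab, lineT_r12, kal, kbe]
  ring

/-- coefficient of `t^13`. -/
def lineT_r13 (a b A B : R) : R :=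
  A ^ 0 * B ^ 13 * ((-119759850) * a ^ 0 * b ^ 6 + (2714556600) * a ^ 1 * b ^ 5 + (775587600) * a ^ 2 * b ^ 4)
      + A ^ 1 * B ^ 12 * ((-13572783000) * a ^ 1 * b ^ 5 + (-12603298500) * a ^ 2 * b ^ 4)
      + A ^ 2 * B ^ 11 * ((23267628000) * a ^ 1 * b ^ 5 + (75619791000) * a ^ 2 * b ^ 4)
      + A ^ 3 * B ^ 10 * ((-17062927200) * a ^ 1 * b ^ 5 + (-11405700) * a ^ 4 * b ^ 2 + (-221818053600) * a ^ 2 * b ^ 4)
      + A ^ 4 * B ^ 9 * ((5332164750) * a ^ 1 * b ^ 5 + (484742250) * a ^ 4 * b ^ 2 + (352892358000) * a ^ 2 * b ^ 4)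
      + A ^ 5 * B ^ 8 * ((-564582150) * a ^ 1 * b ^ 5 + (-6980288400) * a ^ 4 * b ^ 2 + (-317603122200) * a ^ 2 * b ^ 4)
      + A ^ 6 * B ^ 7 * ((46535256000) * a ^ 4 * b ^ 2 + (162873396000) * a ^ 2 * b ^ 4)
      + A ^ 7 * B ^ 6 * ((-162873396000) * a ^ 4 * b ^ 2 + (-46535256000) * a ^ 2 * b ^ 4)
      + A ^ 8 * B ^ 5 * ((-564582150) * a ^ 5 * b ^ 1 + (317603122200) * a ^ 4 * b ^ 2 + (6980288400) * a ^ 2 * b ^ 4)
      + A ^ 9 * B ^ 4 * ((5332164750) * a ^ 5 * b ^ 1 + (-352892358000) * a ^ 4 * b ^ 2 + (-484742250) * a ^ 2 * b ^ 4)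
      + A ^ 10 * B ^ 3 * ((-17062927200) * a ^ 5 * b ^ 1 + (221818053600) * a ^ 4 * b ^ 2 + (11405700) * a ^ 2 * b ^ 4)
      + A ^ 11 * B ^ 2 * ((23267628000) * a ^ 5 * b ^ 1 + (-75619791000) * a ^ 4 * b ^ 2)
      + A ^ 12 * B ^ 1 * ((-13572783000) * a ^ 5 * b ^ 1 + (12603298500) * a ^ 4 * b ^ 2)
      + A ^ 13 * B ^ 0 * ((119759850) * a ^ 6 * b ^ 0 + (2714556600) * a ^ 5 * b ^ 1 + (-775587600) * a ^ 4 * b ^ 2)

set_option linter.unusedSimpArgs false in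
set_option maxHeartbeats 4000000 in
theorem lineT_coeff13 (a b : R) :
    famBc (kHab a b) (kTab a b) 13 = lineT_r13 a b (kal a b) (kbe a b) := by
  simp only [famBc, kHab, kTab, lineT_r13, kal, kbe]
  ring

/-- coefficient of `t^24`. -/
def lineT_r24 (a b A B : R) : R :=
  A ^ 0 * B ^ 24 * ((593775) * a ^ 0 * b ^ 6 + (-13050) * a ^ 1 * b ^ 5)
      + A ^ 1 * B ^ 23 * ((783000) * a ^ 1 * b ^ 5)
      + A ^ 2 * B ^ 22 * ((-12006000) * a ^ 1 * b ^ 5)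
      + A ^ 3 * B ^ 21 * ((66033000) * a ^ 1 * b ^ 5)
      + A ^ 4 * B ^ 20 * ((-138669300) * a ^ 1 * b ^ 5 + (-2101050) * a ^ 2 * b ^ 4)
      + A ^ 5 * B ^ 19 * ((92446200) * a ^ 1 * b ^ 5 + (50425200) * a ^ 2 * b ^ 4)
      + A ^ 6 * B ^ 18 * ((-399199500) * a ^ 2 * b ^ 4)
      + A ^ 7 * B ^ 17 * ((1368684000) * a ^ 2 * b ^ 4)
      + A ^ 8 * B ^ 16 * ((-2181340125) * a ^ 2 * b ^ 4)
      + A ^ 9 * B ^ 15 * ((1551175200) * a ^ 2 * b ^ 4)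
      + A ^ 10 * B ^ 14 * ((-387793800) * a ^ 2 * b ^ 4)
      + A ^ 14 * B ^ 10 * ((-387793800) * a ^ 4 * b ^ 2)
      + A ^ 15 * B ^ 9 * ((1551175200) * a ^ 4 * b ^ 2)
      + A ^ 16 * B ^ 8 * ((-2181340125) * a ^ 4 * b ^ 2)
      + A ^ 17 * B ^ 7 * ((1368684000) * a ^ 4 * b ^ 2)
      + A ^ 18 * B ^ 6 * ((-399199500) * a ^ 4 * b ^ 2)
      + A ^ 19 * B ^ 5 * ((-92446200) * a ^ 5 * b ^ 1 + (50425200) * a ^ 4 * b ^ 2)
      + A ^ 20 * B ^ 4 * ((138669300) * a ^ 5 * b ^ 1 + (-2101050) * a ^ 4 * b ^ 2)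
      + A ^ 21 * B ^ 3 * ((-66033000) * a ^ 5 * b ^ 1)
      + A ^ 22 * B ^ 2 * ((12006000) * a ^ 5 * b ^ 1)
      + A ^ 23 * B ^ 1 * ((-783000) * a ^ 5 * b ^ 1)
      + A ^ 24 * B ^ 0 * ((593775) * a ^ 6 * b ^ 0 + (13050) * a ^ 5 * b ^ 1)

set_option linter.unusedSimpArgs false in
set_option maxHeartbeats 4000000 in
theorem lineT_coeff24 (a b : R) :
    famBc (kHab a b) (kTab a b) 24 = lineT_r24 a b (kal a b) (kbe a b) := by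
  simp only [famBc, kHab, kTab, lineT_r24, kal, kbe]
  ring

/-- coefficient of `t^25`. -/
def lineT_r25 (a b A B : R) : R :=
  A ^ 0 * B ^ 25 * ((-142506) * a ^ 0 * b ^ 6 + (522) * a ^ 1 * b ^ 5)
      + A ^ 1 * B ^ 24 * ((-65250) * a ^ 1 * b ^ 5)
      + A ^ 2 * B ^ 23 * ((1566000) * a ^ 1 * b ^ 5)
      + A ^ 3 * B ^ 22 * ((-12006000) * a ^ 1 * b ^ 5)
      + A ^ 4 * B ^ 21 * ((33016500) * a ^ 1 * b ^ 5)
      + A ^ 5 * B ^ 20 * ((-27733860) * a ^ 1 * b ^ 5 + (-2521260) * a ^ 2 * b ^ 4)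
      + A ^ 6 * B ^ 19 * ((42021000) * a ^ 2 * b ^ 4)
      + A ^ 7 * B ^ 18 * ((-228114000) * a ^ 2 * b ^ 4)
      + A ^ 8 * B ^ 17 * ((513256500) * a ^ 2 * b ^ 4)
      + A ^ 9 * B ^ 16 * ((-484742250) * a ^ 2 * b ^ 4)
      + A ^ 10 * B ^ 15 * ((155117520) * a ^ 2 * b ^ 4)
      + A ^ 15 * B ^ 10 * ((-155117520) * a ^ 4 * b ^ 2)
      + A ^ 16 * B ^ 9 * ((484742250) * a ^ 4 * b ^ 2)
      + A ^ 17 * B ^ 8 * ((-513256500) * a ^ 4 * b ^ 2)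
      + A ^ 18 * B ^ 7 * ((228114000) * a ^ 4 * b ^ 2)
      + A ^ 19 * B ^ 6 * ((-42021000) * a ^ 4 * b ^ 2)
      + A ^ 20 * B ^ 5 * ((-27733860) * a ^ 5 * b ^ 1 + (2521260) * a ^ 4 * b ^ 2)
      + A ^ 21 * B ^ 4 * ((33016500) * a ^ 5 * b ^ 1)
      + A ^ 22 * B ^ 3 * ((-12006000) * a ^ 5 * b ^ 1)
      + A ^ 23 * B ^ 2 * ((1566000) * a ^ 5 * b ^ 1)
      + A ^ 24 * B ^ 1 * ((-65250) * a ^ 5 * b ^ 1)
      + A ^ 25 * B ^ 0 * ((142506) * a ^ 6 * b ^ 0 + (522) * a ^ 5 * b ^ 1)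

set_option linter.unusedSimpArgs false in
set_option maxHeartbeats 4000000 in
theorem lineT_coeff25 (a b : R) :
    famBc (kHab a b) (kTab a b) 25 = lineT_r25 a b (kal a b) (kbe a b) := by
  simp only [famBc, kHab, kTab, lineT_r25, kal, kbe]
  ring

end Fermat.Agent.S52
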