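import Fermat.Agent.S52.Klein.LineT1
import Fermat.Agent.S52.Klein.LineT2
import Fermat.Agent.S52.Klein.LineT3
import Fermat.Agent.S52.Klein.LineT4
import Fermat.Agent.S52.Klein.LineT5
import Fermat.Agent.S52.Klein.LineT6

/-!
# S52, K1b: `kT` along the covariant line
-/

set_option autoImplicit false

namespace Fermat.Agent.S52

variable {R : Type*} [CommRing R]

set_option maxHeartbeats 4000000 in
theorem lineT_expand (a b A B t : R) :
    kTab (a * (1 + t * A) ^ 5) (b * (1 - t * B) ^ 5) =
      lineT_r0 a b A B * t ^ 0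
      + lineT_r1 a b A B * t ^ 1
      + lineT_r2 a b A B * t ^ 2
      + lineT_r3 a b A B * t ^ 3
      + lineT_r4 a b A B * t ^ 4
      + lineT_r5 a b A B * t ^ 5
      + lineT_r6 a b A B * t ^ 6
      + lineT_r7 a b A B * t ^ 7
      + lineT_r8 a b A B * t ^ 8
      + lineT_r9 a b A B * t ^ 9
      + lineT_r10 a b A B * t ^ 10
      + lineT_r11 a b A B * t ^ 11
      + lineT_r12 a b A B * t ^ 12
      + lineT_r13 a b A B * t ^ 13
      + lineT_r14 a b A B * t ^ 14
      + lineT_r15 a b A B * t ^ 15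
      + lineT_r16 a b A B * t ^ 16
      + lineT_r17 a b A B * t ^ 17
      + lineT_r18 a b A B * t ^ 18
      + lineT_r19 a b A B * t ^ 19
      + lineT_r20 a b A B * t ^ 20
      + lineT_r21 a b A B * t ^ 21
      + lineT_r22 a b A B * t ^ 22
      + lineT_r23 a b A B * t ^ 23
      + lineT_r24 a b A B * t ^ 24
      + lineT_r25 a b A B * t ^ 25
      + lineT_r26 a b A B * t ^ 26
      + lineT_r27 a b A B * t ^ 27
      + lineT_r28 a b A B * t ^ 28
      + lineT_r29 a b A B * t ^ 29
      + lineT_r30 a b A B * t ^ 30 := by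
  simp only [kTab, lineT_r0, lineT_r1, lineT_r2, lineT_r3, lineT_r4, lineT_r5, lineT_r6, lineT_r7, lineT_r8, lineT_r9, lineT_r10, lineT_r11, lineT_r12, lineT_r13, lineT_r14, lineT_r15, lineT_r16, lineT_r17, lineT_r18, lineT_r19, lineT_r20, lineT_r21, lineT_r22, lineT_r23, lineT_r24, lineT_r25, lineT_r26, lineT_r27, lineT_r28, lineT_r29, lineT_r30]
  ring

theorem kTab_line (a b t : R) :
    kTab (a * (1 + t * kal a b) ^ 5) (b * (1 - t * kbe a b) ^ 5) =
      famB (kHab a b) (kTab a b) t := by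
  rw [lineT_expand]
  simp only [famB, Finset.sum_range_succ, Finset.sum_range_zero, zero_add,
    lineT_coeff0, lineT_coeff1, lineT_coeff2, lineT_coeff3, lineT_coeff4, lineT_coeff5, lineT_coeff6, lineT_coeff7, lineT_coeff8, lineT_coeff9, lineT_coeff10, lineT_coeff11, lineT_coeff12, lineT_coeff13, lineT_coeff14, lineT_coeff15, lineT_coeff16, lineT_coeff17, lineT_coeff18, lineT_coeff19, lineT_coeff20, lineT_coeff21, lineT_coeff22, lineT_coeff23, lineT_coeff24, lineT_coeff25, lineT_coeff26, lineT_coeff27, lineT_coeff28, lineT_coeff29, lineT_coeff30]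

theorem kT_line (u v t : R) :
    kT (lineU u v t) (lineV u v t) = famB (kH u v) (kT u v) t := by
  rw [kT_eq_kTab (lineU u v t) (lineV u v t), lineU_eq, lineV_eq, mul_pow, mul_pow,
    kH_eq_kHab u v, kT_eq_kTab u v, kTab_line]

end Fermat.Agent.S52
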