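import Fermat.Agent.S52.Defs

/-!
# S52: the Klein forms in the variables `a = u^5`, `b = v^5`
-/

set_option autoImplicit false

namespace Fermat.Agent.S52

variable {R : Type*} [CommRing R]

/-- `kH` in the variables `a = u^5`, `b = v^5`. -/
def kHab (a b : R) : R := a^4 - 228 * a^3 * b + 494 * a^2 * b^2 + 228 * a * b^3 + b^4

/-- `kT` in the variables `a = u^5`, `b = v^5`. -/
def kTab (a b : R) : R :=
  a^6 + b^6 + 522 * (a^5 * b - a * b^5) - 10005 * (a^4 * b^2 + a^2 * b^4)

/-- `lineU u v t = u * (1 + t * kal (u^5) (v^5))`. -/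
def kal (a b : R) : R := a^2 + 66 * a * b - 11 * b^2

/-- `lineV u v t = v * (1 - t * kbe (u^5) (v^5))`. -/
def kbe (a b : R) : R := 11 * a^2 + 66 * a * b - b^2

/-- the quadratic factor of `kf`. -/
def kq (a b : R) : R := a^2 + 11 * a * b - b^2

theorem kH_eq_kHab (u v : R) : kH u v = kHab (u^5) (v^5) := by unfold kH kHab; ring

theorem kT_eq_kTab (u v : R) : kT u v = kTab (u^5) (v^5) := by unfold kT kTab; ring

theorem kf_eq_kq (u v : R) : kf u v = u * v * kq (u^5) (v^5) := by unfold kf kq; ring

theorem lineU_eq (u v t : R) : lineU u v t = u * (1 + t * kal (u^5) (v^5)) := by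
  unfold lineU kfv kal; ring

theorem lineV_eq (u v t : R) : lineV u v t = v * (1 - t * kbe (u^5) (v^5)) := by
  unfold lineV kfu kbe; ring

/-- Klein's relation in the variables `a, b`. -/
theorem klein_relation_kab (a b : R) : kHab a b ^ 3 - kTab a b ^ 2 = -1728 * (a * b * kq a b ^ 5) := by
  unfold kHab kTab kq; ring

theorem kal_add_kbe (a b : R) : kal a b + kbe a b = 12 * kq a b := by
  unfold kal kbe kq; ring

section maps

variable {S : Type*} [CommRing S] (f : R →+* S)

theorem map_kHab (a b : R) : f (kHab a b) = kHab (f a) (f b) := by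
  simp only [kHab, map_add, map_sub, map_mul, map_pow, map_ofNat]

theorem map_kTab (a b : R) : f (kTab a b) = kTab (f a) (f b) := by
  simp only [kTab, map_add, map_sub, map_mul, map_pow, map_ofNat]

end maps

end Fermat.Agent.S52
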