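import Fermat.Agent.S52.Defs

/-!
# S52, Klein forms: no common zeros (K3, K4)

We also introduce the forms in the variables `a = u^5`, `b = v^5`.
-/

set_option autoImplicit false

namespace Fermat.Agent.S52

section ring

variable {R : Type*} [CommRing R]

/-- the quadratic form `a² + 11ab - b²`, so that `kf u v = u * v * kQa (u^5) (v^5)`. -/
def kQa (a b : R) : R := a ^ 2 + 11 * a * b - b ^ 2

/-- `kH` in the variables `a = u^5`, `b = v^5`. -/
def kHa (a b : R) : R := a ^ 4 - 228 * a ^ 3 * b + 494 * a ^ 2 * b ^ 2 + 228 * a * b ^ 3 + b ^ 4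

/-- `kT` in the variables `a = u^5`, `b = v^5`. -/
def kTa (a b : R) : R :=
  a ^ 6 + b ^ 6 + 522 * (a ^ 5 * b - a * b ^ 5) - 10005 * (a ^ 4 * b ^ 2 + a ^ 2 * b ^ 4)

theorem kf_eq_kQa (u v : R) : kf u v = u * v * kQa (u ^ 5) (v ^ 5) := by
  unfold kf kQa; ring

theorem kH_eq_kHa (u v : R) : kH u v = kHa (u ^ 5) (v ^ 5) := by
  unfold kH kHa; ring

theorem kT_eq_kTa (u v : R) : kT u v = kTa (u ^ 5) (v ^ 5) := by
  unfold kT kTa; ring

theorem kHa_eq (a b : R) :
    kHa a b = kQa a b ^ 2 - 250 * a * b * kQa a b + 3125 * a ^ 2 * b ^ 2 := by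
  unfold kHa kQa; ring

/-- Klein's relation in the variables `a`, `b`. -/
theorem klein_relation_ab (a b : R) :
    kHa a b ^ 3 - kTa a b ^ 2 = -1728 * (a * b * kQa a b ^ 5) := by
  unfold kHa kTa kQa; ring

theorem kHa_smul (c a b : R) : kHa (c * a) (c * b) = c ^ 4 * kHa a b := by
  unfold kHa; ring

theorem kTa_smul (c a b : R) : kTa (c * a) (c * b) = c ^ 6 * kTa a b := by
  unfold kTa; ring

end ring

section field

variable {k : Type*} [Field k]

/-- `a b Q` and `kHa` have no common zero when `5 ≠ 0`. -/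
theorem eq_zero_of_kQa_kHa (h5 : (5 : k) ≠ 0) (a b : k) (h1 : a * b * kQa a b = 0)
    (h2 : kHa a b = 0) : a = 0 ∧ b = 0 := by
  have key : a = 0 ∨ b = 0 := by
    rcases mul_eq_zero.1 h1 with h | h
    · exact mul_eq_zero.1 h
    · rw [kHa_eq, h] at h2
      have h3 : (5 : k) ^ 5 * (a * b) ^ 2 = 0 := by linear_combination h2
      rcases mul_eq_zero.1 h3 with h4 | h4
      · exact absurd (pow_eq_zero_iff (by norm_num) |>.1 h4) h5
      · exact mul_eq_zero.1 (pow_eq_zero_iff (by norm_num) |>.1 h4)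
  rcases key with h | h
  · subst h
    refine ⟨rfl, ?_⟩
    have : b ^ 4 = 0 := by
      unfold kHa at h2; linear_combination h2
    exact pow_eq_zero_iff (by norm_num) |>.1 this
  · subst h
    refine ⟨?_, rfl⟩
    have : a ^ 4 = 0 := by
      unfold kHa at h2; linear_combination h2
    exact pow_eq_zero_iff (by norm_num) |>.1 this

/-- `kHa` and `kTa` have no common zero when `30 ≠ 0`. -/
theorem eq_zero_of_kHa_kTa (h30 : (30 : k) ≠ 0) (a b : k) (h1 : kHa a b = 0)
    (h2 : kTa a b = 0) : a = 0 ∧ b = 0 := by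
  have h5 : (5 : k) ≠ 0 := fun h => h30 (by linear_combination 6 * h)
  have h2' : (2 : k) ≠ 0 := fun h => h30 (by linear_combination 15 * h)
  have h3' : (3 : k) ≠ 0 := fun h => h30 (by linear_combination 10 * h)
  have h := klein_relation_ab a b
  rw [h1, h2] at h
  have h3 : ((2 : k) ^ 6 * 3 ^ 3) * (a * b * kQa a b ^ 5) = 0 := by linear_combination h
  have h4 : a * b * kQa a b ^ 5 = 0 :=
    (mul_eq_zero.1 h3).resolve_left (mul_ne_zero (pow_ne_zero _ h2') (pow_ne_zero _ h3'))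
  refine eq_zero_of_kQa_kHa h5 a b ?_ h1
  rcases mul_eq_zero.1 h4 with h6 | h6
  · rw [h6, zero_mul]
  · rw [pow_eq_zero_iff (by norm_num) |>.1 h6, mul_zero]

/-- **K3**: `kf` and `kH` have no common zero when `5 ≠ 0`. -/
theorem eq_zero_of_kf_kH (h5 : (5 : k) ≠ 0) (u v : k) (h1 : kf u v = 0) (h2 : kH u v = 0) :
    u = 0 ∧ v = 0 := by
  rw [kH_eq_kHa] at h2
  rw [kf_eq_kQa] at h1
  have h3 : u ^ 5 * v ^ 5 * kQa (u ^ 5) (v ^ 5) = 0 := by
    linear_combination u ^ 4 * v ^ 4 * h1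
  obtain ⟨ha, hb⟩ := eq_zero_of_kQa_kHa h5 _ _ h3 h2
  exact ⟨pow_eq_zero_iff (by norm_num) |>.1 ha, pow_eq_zero_iff (by norm_num) |>.1 hb⟩

/-- **K4**: the partial derivatives of `kf` have no common zero when `30 ≠ 0`. -/
theorem eq_zero_of_kfu_kfv (h30 : (30 : k) ≠ 0) (u v : k) (h1 : kfu u v = 0)
    (h2 : kfv u v = 0) : u = 0 ∧ v = 0 := by
  have h5 : (5 : k) ≠ 0 := fun h => h30 (by linear_combination 6 * h)
  have h2' : (2 : k) ≠ 0 := fun h => h30 (by linear_combination 15 * h)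
  have h3' : (3 : k) ≠ 0 := fun h => h30 (by linear_combination 10 * h)
  by_cases hu : u = 0
  · subst hu
    refine ⟨rfl, ?_⟩
    have : v ^ 11 = 0 := by
      unfold kfu at h1; linear_combination -h1
    exact pow_eq_zero_iff (by norm_num) |>.1 this
  by_cases hv : v = 0
  · subst hv
    refine ⟨?_, rfl⟩
    have : u ^ 11 = 0 := by
      unfold kfv at h2; linear_combination h2
    exact pow_eq_zero_iff (by norm_num) |>.1 this
  exfalso
  have e1 : 11 * u ^ 10 + 66 * u ^ 5 * v ^ 5 - v ^ 10 = 0 :=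
    (mul_eq_zero.1 h1).resolve_left hv
  have e2 : u ^ 10 + 66 * u ^ 5 * v ^ 5 - 11 * v ^ 10 = 0 :=
    (mul_eq_zero.1 h2).resolve_left hu
  -- `10 (a² + b²) = 0`
  have e3 : u ^ 10 + v ^ 10 = 0 := by
    have : ((2 : k) * 5) * (u ^ 10 + v ^ 10) = 0 := by linear_combination e1 - e2
    exact (mul_eq_zero.1 this).resolve_left (mul_ne_zero h2' h5)
  -- `6 a (2 a + 11 b) = 0`
  have e4 : 2 * u ^ 5 + 11 * v ^ 5 = 0 := by
    have : ((2 : k) * 3 * u ^ 5) * (2 * u ^ 5 + 11 * v ^ 5) = 0 := by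
      linear_combination e1 + e3
    exact (mul_eq_zero.1 this).resolve_left
      (mul_ne_zero (mul_ne_zero h2' h3') (pow_ne_zero _ hu))
  -- `125 b² = 0`
  have e5 : (5 : k) ^ 3 * v ^ 10 = 0 := by
    linear_combination 4 * e3 - (2 * u ^ 5 - 11 * v ^ 5) * e4
  exact (mul_ne_zero (pow_ne_zero _ h5) (pow_ne_zero _ hv)) e5

end field

end Fermat.Agent.S52
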