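import Fermat.Agent.S52.Klein.AB

/-!
# S52, K1: coefficients for `kf_line`, part 1 (generated identities in two variables)
-/

set_option autoImplicit false

namespace Fermat.Agent.S52

variable {R : Type*} [CommRing R]

/-- coefficient of `t^0`. -/
def lineF_r0 (a b A B : R) : R :=
  A ^ 0 * B ^ 0 * ((1) * a ^ 2 * b ^ 0 + (11) * a ^ 1 * b ^ 1 + (-1) * a ^ 0 * b ^ 2)

set_option linter.unusedSimpArgs false in
set_option maxHeartbeats 4000000 in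
theorem lineF_coeff0 (a b : R) :
    kq a b * famDc (kHab a b) (kTab a b) 0 = lineF_r0 a b (kal a b) (kbe a b) := by
  simp only [famDc, kHab, kTab, lineF_r0, kal, kbe, kq]
  ring

/-- coefficient of `t^1`. -/
def lineF_r1 (a b A B : R) : R :=
  A ^ 0 * B ^ 1 * ((-1) * a ^ 2 * b ^ 0 + (-66) * a ^ 1 * b ^ 1 + (11) * a ^ 0 * b ^ 2)
      + A ^ 1 * B ^ 0 * ((11) * a ^ 2 * b ^ 0 + (66) * a ^ 1 * b ^ 1 + (-1) * a ^ 0 * b ^ 2)

set_option linter.unusedSimpArgs false in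
set_option maxHeartbeats 4000000 in
theorem lineF_coeff1 (a b : R) :
    kq a b * famDc (kHab a b) (kTab a b) 1 = lineF_r1 a b (kal a b) (kbe a b) := by
  simp only [famDc, kHab, kTab, lineF_r1, kal, kbe, kq]
  ring

/-- coefficient of `t^4`. -/
def lineF_r4 (a b A B : R) : R :=
  A ^ 0 * B ^ 4 * ((165) * a ^ 1 * b ^ 1 + (-330) * a ^ 0 * b ^ 2)
      + A ^ 1 * B ^ 3 * ((-1320) * a ^ 1 * b ^ 1 + (165) * a ^ 0 * b ^ 2)
      + A ^ 2 * B ^ 2 * ((2475) * a ^ 1 * b ^ 1)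
      + A ^ 3 * B ^ 1 * ((-165) * a ^ 2 * b ^ 0 + (-1320) * a ^ 1 * b ^ 1)
      + A ^ 4 * B ^ 0 * ((330) * a ^ 2 * b ^ 0 + (165) * a ^ 1 * b ^ 1)

set_option linter.unusedSimpArgs false in
set_option maxHeartbeats 4000000 in
theorem lineF_coeff4 (a b : R) :
    kq a b * famDc (kHab a b) (kTab a b) 4 = lineF_r4 a b (kal a b) (kbe a b) := by
  simp only [famDc, kHab, kTab, lineF_r4, kal, kbe, kq]
  ring

/-- coefficient of `t^5`. -/
def lineF_r5 (a b A B : R) : R :=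
  A ^ 0 * B ^ 5 * ((-66) * a ^ 1 * b ^ 1 + (462) * a ^ 0 * b ^ 2)
      + A ^ 1 * B ^ 4 * ((990) * a ^ 1 * b ^ 1 + (-330) * a ^ 0 * b ^ 2)
      + A ^ 2 * B ^ 3 * ((-3300) * a ^ 1 * b ^ 1)
      + A ^ 3 * B ^ 2 * ((3300) * a ^ 1 * b ^ 1)
      + A ^ 4 * B ^ 1 * ((-330) * a ^ 2 * b ^ 0 + (-990) * a ^ 1 * b ^ 1)
      + A ^ 5 * B ^ 0 * ((462) * a ^ 2 * b ^ 0 + (66) * a ^ 1 * b ^ 1)

set_option linter.unusedSimpArgs false in
set_option maxHeartbeats 4000000 in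
theorem lineF_coeff5 (a b : R) :
    kq a b * famDc (kHab a b) (kTab a b) 5 = lineF_r5 a b (kal a b) (kbe a b) := by
  simp only [famDc, kHab, kTab, lineF_r5, kal, kbe, kq]
  ring

/-- coefficient of `t^8`. -/
def lineF_r8 (a b A B : R) : R :=
  A ^ 0 * B ^ 8 * ((-165) * a ^ 0 * b ^ 2)
      + A ^ 1 * B ^ 7 * ((330) * a ^ 0 * b ^ 2)
      + A ^ 2 * B ^ 6 * ((165) * a ^ 1 * b ^ 1)
      + A ^ 3 * B ^ 5 * ((-1320) * a ^ 1 * b ^ 1)
      + A ^ 4 * B ^ 4 * ((2475) * a ^ 1 * b ^ 1)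
      + A ^ 5 * B ^ 3 * ((-1320) * a ^ 1 * b ^ 1)
      + A ^ 6 * B ^ 2 * ((165) * a ^ 1 * b ^ 1)
      + A ^ 7 * B ^ 1 * ((-330) * a ^ 2 * b ^ 0)
      + A ^ 8 * B ^ 0 * ((165) * a ^ 2 * b ^ 0)

set_option linter.unusedSimpArgs false in
set_option maxHeartbeats 4000000 in
theorem lineF_coeff8 (a b : R) :
    kq a b * famDc (kHab a b) (kTab a b) 8 = lineF_r8 a b (kal a b) (kbe a b) := by
  simp only [famDc, kHab, kTab, lineF_r8, kal, kbe, kq]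
  ring

/-- coefficient of `t^9`. -/
def lineF_r9 (a b A B : R) : R :=
  A ^ 0 * B ^ 9 * ((55) * a ^ 0 * b ^ 2)
      + A ^ 1 * B ^ 8 * ((-165) * a ^ 0 * b ^ 2)
      + A ^ 3 * B ^ 6 * ((220) * a ^ 1 * b ^ 1)
      + A ^ 4 * B ^ 5 * ((-990) * a ^ 1 * b ^ 1)
      + A ^ 5 * B ^ 4 * ((990) * a ^ 1 * b ^ 1)
      + A ^ 6 * B ^ 3 * ((-220) * a ^ 1 * b ^ 1)
      + A ^ 8 * B ^ 1 * ((-165) * a ^ 2 * b ^ 0)
      + A ^ 9 * B ^ 0 * ((55) * a ^ 2 * b ^ 0)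

set_option linter.unusedSimpArgs false in
set_option maxHeartbeats 4000000 in
theorem lineF_coeff9 (a b : R) :
    kq a b * famDc (kHab a b) (kTab a b) 9 = lineF_r9 a b (kal a b) (kbe a b) := by
  simp only [famDc, kHab, kTab, lineF_r9, kal, kbe, kq]
  ring

/-- coefficient of `t^12`. -/
def lineF_r12 (a b A B : R) : R :=
  A ^ 1 * B ^ 11 * ((1) * a ^ 0 * b ^ 2)
      + A ^ 6 * B ^ 6 * ((11) * a ^ 1 * b ^ 1)
      + A ^ 11 * B ^ 1 * ((-1) * a ^ 2 * b ^ 0)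

set_option linter.unusedSimpArgs false in
set_option maxHeartbeats 4000000 in
theorem lineF_coeff12 (a b : R) :
    kq a b * famDc (kHab a b) (kTab a b) 12 = lineF_r12 a b (kal a b) (kbe a b) := by
  simp only [famDc, kHab, kTab, lineF_r12, kal, kbe, kq]
  ring

end Fermat.Agent.S52
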