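import Fermat.Agent.S52.Klein.AB

/-!
# S52, K1: coefficients for `kH_line`, part 1 (generated identities in two variables)
-/

set_option autoImplicit false

namespace Fermat.Agent.S52

variable {R : Type*} [CommRing R]

/-- coefficient of `t^2`. -/
def lineH_r2 (a b A B : R) : R :=
  A ^ 0 * B ^ 2 * ((-2280) * a ^ 3 * b ^ 1 + (22230) * a ^ 2 * b ^ 2 + (23940) * a ^ 1 * b ^ 3 + (190) * a ^ 0 * b ^ 4)
      + A ^ 1 * B ^ 1 * ((17100) * a ^ 3 * b ^ 1 + (-49400) * a ^ 2 * b ^ 2 + (-17100) * a ^ 1 * b ^ 3)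
      + A ^ 2 * B ^ 0 * ((190) * a ^ 4 * b ^ 0 + (-23940) * a ^ 3 * b ^ 1 + (22230) * a ^ 2 * b ^ 2 + (2280) * a ^ 1 * b ^ 3)

set_option linter.unusedSimpArgs false in
set_option maxHeartbeats 4000000 in
theorem lineH_coeff2 (a b : R) :
    famAc (kHab a b) (kTab a b) 2 = lineH_r2 a b (kal a b) (kbe a b) := by
  simp only [famAc, kHab, kTab, lineH_r2, kal, kbe]
  ring

/-- coefficient of `t^3`. -/
def lineH_r3 (a b A B : R) : R :=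
  A ^ 0 * B ^ 3 * ((2280) * a ^ 3 * b ^ 1 + (-59280) * a ^ 2 * b ^ 2 + (-103740) * a ^ 1 * b ^ 3 + (-1140) * a ^ 0 * b ^ 4)
      + A ^ 1 * B ^ 2 * ((-34200) * a ^ 3 * b ^ 1 + (222300) * a ^ 2 * b ^ 2 + (119700) * a ^ 1 * b ^ 3)
      + A ^ 2 * B ^ 1 * ((119700) * a ^ 3 * b ^ 1 + (-222300) * a ^ 2 * b ^ 2 + (-34200) * a ^ 1 * b ^ 3)
      + A ^ 3 * B ^ 0 * ((1140) * a ^ 4 * b ^ 0 + (-103740) * a ^ 3 * b ^ 1 + (59280) * a ^ 2 * b ^ 2 + (2280) * a ^ 1 * b ^ 3)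

set_option linter.unusedSimpArgs false in
set_option maxHeartbeats 4000000 in
theorem lineH_coeff3 (a b : R) :
    famAc (kHab a b) (kTab a b) 3 = lineH_r3 a b (kal a b) (kbe a b) := by
  simp only [famAc, kHab, kTab, lineH_r3, kal, kbe]
  ring

/-- coefficient of `t^8`. -/
def lineH_r8 (a b A B : R) : R :=
  A ^ 0 * B ^ 8 * ((22230) * a ^ 2 * b ^ 2 + (1467180) * a ^ 1 * b ^ 3 + (125970) * a ^ 0 * b ^ 4)
      + A ^ 1 * B ^ 7 * ((-592800) * a ^ 2 * b ^ 2 + (-7335900) * a ^ 1 * b ^ 3)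
      + A ^ 2 * B ^ 6 * ((4668300) * a ^ 2 * b ^ 2 + (11411400) * a ^ 1 * b ^ 3)
      + A ^ 3 * B ^ 5 * ((103740) * a ^ 3 * b ^ 1 + (-14938560) * a ^ 2 * b ^ 2 + (-6846840) * a ^ 1 * b ^ 3)
      + A ^ 4 * B ^ 4 * ((-1556100) * a ^ 3 * b ^ 1 + (21785400) * a ^ 2 * b ^ 2 + (1556100) * a ^ 1 * b ^ 3)
      + A ^ 5 * B ^ 3 * ((6846840) * a ^ 3 * b ^ 1 + (-14938560) * a ^ 2 * b ^ 2 + (-103740) * a ^ 1 * b ^ 3)
      + A ^ 6 * B ^ 2 * ((-11411400) * a ^ 3 * b ^ 1 + (4668300) * a ^ 2 * b ^ 2)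
      + A ^ 7 * B ^ 1 * ((7335900) * a ^ 3 * b ^ 1 + (-592800) * a ^ 2 * b ^ 2)
      + A ^ 8 * B ^ 0 * ((125970) * a ^ 4 * b ^ 0 + (-1467180) * a ^ 3 * b ^ 1 + (22230) * a ^ 2 * b ^ 2)

set_option linter.unusedSimpArgs false in
set_option maxHeartbeats 4000000 in
theorem lineH_coeff8 (a b : R) :
    famAc (kHab a b) (kTab a b) 8 = lineH_r8 a b (kal a b) (kbe a b) := by
  simp only [famAc, kHab, kTab, lineH_r8, kal, kbe]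
  ring

/-- coefficient of `t^9`. -/
def lineH_r9 (a b A B : R) : R :=
  A ^ 0 * B ^ 9 * ((-4940) * a ^ 2 * b ^ 2 + (-1141140) * a ^ 1 * b ^ 3 + (-167960) * a ^ 0 * b ^ 4)
      + A ^ 1 * B ^ 8 * ((222300) * a ^ 2 * b ^ 2 + (7335900) * a ^ 1 * b ^ 3)
      + A ^ 2 * B ^ 7 * ((-2667600) * a ^ 2 * b ^ 2 + (-14671800) * a ^ 1 * b ^ 3)
      + A ^ 3 * B ^ 6 * ((12448800) * a ^ 2 * b ^ 2 + (11411400) * a ^ 1 * b ^ 3)
      + A ^ 4 * B ^ 5 * ((311220) * a ^ 3 * b ^ 1 + (-26142480) * a ^ 2 * b ^ 2 + (-3423420) * a ^ 1 * b ^ 3)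
      + A ^ 5 * B ^ 4 * ((-3423420) * a ^ 3 * b ^ 1 + (26142480) * a ^ 2 * b ^ 2 + (311220) * a ^ 1 * b ^ 3)
      + A ^ 6 * B ^ 3 * ((11411400) * a ^ 3 * b ^ 1 + (-12448800) * a ^ 2 * b ^ 2)
      + A ^ 7 * B ^ 2 * ((-14671800) * a ^ 3 * b ^ 1 + (2667600) * a ^ 2 * b ^ 2)
      + A ^ 8 * B ^ 1 * ((7335900) * a ^ 3 * b ^ 1 + (-222300) * a ^ 2 * b ^ 2)
      + A ^ 9 * B ^ 0 * ((167960) * a ^ 4 * b ^ 0 + (-1141140) * a ^ 3 * b ^ 1 + (4940) * a ^ 2 * b ^ 2)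

set_option linter.unusedSimpArgs false in
set_option maxHeartbeats 4000000 in
theorem lineH_coeff9 (a b : R) :
    famAc (kHab a b) (kTab a b) 9 = lineH_r9 a b (kal a b) (kbe a b) := by
  simp only [famAc, kHab, kTab, lineH_r9, kal, kbe]
  ring

/-- coefficient of `t^14`. -/
def lineH_r14 (a b A B : R) : R :=
  A ^ 0 * B ^ 14 * ((3420) * a ^ 1 * b ^ 3 + (38760) * a ^ 0 * b ^ 4)
      + A ^ 1 * B ^ 13 * ((-119700) * a ^ 1 * b ^ 3)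
      + A ^ 2 * B ^ 12 * ((1037400) * a ^ 1 * b ^ 3)
      + A ^ 3 * B ^ 11 * ((-3112200) * a ^ 1 * b ^ 3)
      + A ^ 4 * B ^ 10 * ((103740) * a ^ 2 * b ^ 2 + (3423420) * a ^ 1 * b ^ 3)
      + A ^ 5 * B ^ 9 * ((-1244880) * a ^ 2 * b ^ 2 + (-1141140) * a ^ 1 * b ^ 3)
      + A ^ 6 * B ^ 8 * ((4668300) * a ^ 2 * b ^ 2)
      + A ^ 7 * B ^ 7 * ((-7113600) * a ^ 2 * b ^ 2)
      + A ^ 8 * B ^ 6 * ((4668300) * a ^ 2 * b ^ 2)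
      + A ^ 9 * B ^ 5 * ((1141140) * a ^ 3 * b ^ 1 + (-1244880) * a ^ 2 * b ^ 2)
      + A ^ 10 * B ^ 4 * ((-3423420) * a ^ 3 * b ^ 1 + (103740) * a ^ 2 * b ^ 2)
      + A ^ 11 * B ^ 3 * ((3112200) * a ^ 3 * b ^ 1)
      + A ^ 12 * B ^ 2 * ((-1037400) * a ^ 3 * b ^ 1)
      + A ^ 13 * B ^ 1 * ((119700) * a ^ 3 * b ^ 1)
      + A ^ 14 * B ^ 0 * ((38760) * a ^ 4 * b ^ 0 + (-3420) * a ^ 3 * b ^ 1)

set_option linter.unusedSimpArgs false in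
set_option maxHeartbeats 4000000 in
theorem lineH_coeff14 (a b : R) :
    famAc (kHab a b) (kTab a b) 14 = lineH_r14 a b (kal a b) (kbe a b) := by
  simp only [famAc, kHab, kTab, lineH_r14, kal, kbe]
  ring

/-- coefficient of `t^15`. -/
def lineH_r15 (a b A B : R) : R :=
  A ^ 0 * B ^ 15 * ((-228) * a ^ 1 * b ^ 3 + (-15504) * a ^ 0 * b ^ 4)
      + A ^ 1 * B ^ 14 * ((17100) * a ^ 1 * b ^ 3)
      + A ^ 2 * B ^ 13 * ((-239400) * a ^ 1 * b ^ 3)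
      + A ^ 3 * B ^ 12 * ((1037400) * a ^ 1 * b ^ 3)
      + A ^ 4 * B ^ 11 * ((-1556100) * a ^ 1 * b ^ 3)
      + A ^ 5 * B ^ 10 * ((124488) * a ^ 2 * b ^ 2 + (684684) * a ^ 1 * b ^ 3)
      + A ^ 6 * B ^ 9 * ((-1037400) * a ^ 2 * b ^ 2)
      + A ^ 7 * B ^ 8 * ((2667600) * a ^ 2 * b ^ 2)
      + A ^ 8 * B ^ 7 * ((-2667600) * a ^ 2 * b ^ 2)
      + A ^ 9 * B ^ 6 * ((1037400) * a ^ 2 * b ^ 2)
      + A ^ 10 * B ^ 5 * ((684684) * a ^ 3 * b ^ 1 + (-124488) * a ^ 2 * b ^ 2)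
      + A ^ 11 * B ^ 4 * ((-1556100) * a ^ 3 * b ^ 1)
      + A ^ 12 * B ^ 3 * ((1037400) * a ^ 3 * b ^ 1)
      + A ^ 13 * B ^ 2 * ((-239400) * a ^ 3 * b ^ 1)
      + A ^ 14 * B ^ 1 * ((17100) * a ^ 3 * b ^ 1)
      + A ^ 15 * B ^ 0 * ((15504) * a ^ 4 * b ^ 0 + (-228) * a ^ 3 * b ^ 1)

set_option linter.unusedSimpArgs false in
set_option maxHeartbeats 4000000 in
theorem lineH_coeff15 (a b : R) :
    famAc (kHab a b) (kTab a b) 15 = lineH_r15 a b (kal a b) (kbe a b) := by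
  simp only [famAc, kHab, kTab, lineH_r15, kal, kbe]
  ring

/-- coefficient of `t^20`. -/
def lineH_r20 (a b A B : R) : R :=
  A ^ 0 * B ^ 20 * ((1) * a ^ 0 * b ^ 4)
      + A ^ 5 * B ^ 15 * ((-228) * a ^ 1 * b ^ 3)
      + A ^ 10 * B ^ 10 * ((494) * a ^ 2 * b ^ 2)
      + A ^ 15 * B ^ 5 * ((228) * a ^ 3 * b ^ 1)
      + A ^ 20 * B ^ 0 * ((1) * a ^ 4 * b ^ 0)

set_option linter.unusedSimpArgs false in
set_option maxHeartbeats 4000000 in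
theorem lineH_coeff20 (a b : R) :
    famAc (kHab a b) (kTab a b) 20 = lineH_r20 a b (kal a b) (kbe a b) := by
  simp only [famAc, kHab, kTab, lineH_r20, kal, kbe]
  ring

end Fermat.Agent.S52
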