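import Fermat.Agent.S52.Klein.AB

/-!
# S52, K1: coefficients for `kT_line`, part 1 (generated identities in two variables)
-/

set_option autoImplicit false

namespace Fermat.Agent.S52

variable {R : Type*} [CommRing R]

/-- coefficient of `t^6`. -/
def lineT_r6 (a b A B : R) : R :=
  A ^ 0 * B ^ 6 * ((593775) * a ^ 0 * b ^ 6 + (-92446200) * a ^ 1 * b ^ 5 + (-2101050) * a ^ 4 * b ^ 2 + (-387793800) * a ^ 2 * b ^ 4)
      + A ^ 1 * B ^ 5 * ((-13050) * a ^ 5 * b ^ 1 + (138669300) * a ^ 1 * b ^ 5 + (50425200) * a ^ 4 * b ^ 2 + (1551175200) * a ^ 2 * b ^ 4)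
      + A ^ 2 * B ^ 4 * ((783000) * a ^ 5 * b ^ 1 + (-66033000) * a ^ 1 * b ^ 5 + (-399199500) * a ^ 4 * b ^ 2 + (-2181340125) * a ^ 2 * b ^ 4)
      + A ^ 3 * B ^ 3 * ((-12006000) * a ^ 5 * b ^ 1 + (12006000) * a ^ 1 * b ^ 5 + (1368684000) * a ^ 4 * b ^ 2 + (1368684000) * a ^ 2 * b ^ 4)
      + A ^ 4 * B ^ 2 * ((66033000) * a ^ 5 * b ^ 1 + (-783000) * a ^ 1 * b ^ 5 + (-2181340125) * a ^ 4 * b ^ 2 + (-399199500) * a ^ 2 * b ^ 4)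
      + A ^ 5 * B ^ 1 * ((-138669300) * a ^ 5 * b ^ 1 + (13050) * a ^ 1 * b ^ 5 + (1551175200) * a ^ 4 * b ^ 2 + (50425200) * a ^ 2 * b ^ 4)
      + A ^ 6 * B ^ 0 * ((593775) * a ^ 6 * b ^ 0 + (92446200) * a ^ 5 * b ^ 1 + (-387793800) * a ^ 4 * b ^ 2 + (-2101050) * a ^ 2 * b ^ 4)

set_option linter.unusedSimpArgs false in
set_option maxHeartbeats 4000000 in
theorem lineT_coeff6 (a b : R) :
    famBc (kHab a b) (kTab a b) 6 = lineT_r6 a b (kal a b) (kbe a b) := by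
  simp only [famBc, kHab, kTab, lineT_r6, kal, kbe]
  ring

/-- coefficient of `t^7`. -/
def lineT_r7 (a b A B : R) : R :=
  A ^ 0 * B ^ 7 * ((-2035800) * a ^ 0 * b ^ 6 + (250925400) * a ^ 1 * b ^ 5 + (1200600) * a ^ 4 * b ^ 2 + (775587600) * a ^ 2 * b ^ 4)
      + A ^ 1 * B ^ 6 * ((-462231000) * a ^ 1 * b ^ 5 + (-42021000) * a ^ 4 * b ^ 2 + (-3877938000) * a ^ 2 * b ^ 4)
      + A ^ 2 * B ^ 5 * ((-156600) * a ^ 5 * b ^ 1 + (277338600) * a ^ 1 * b ^ 5 + (479039400) * a ^ 4 * b ^ 2 + (6980288400) * a ^ 2 * b ^ 4)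
      + A ^ 3 * B ^ 4 * ((6003000) * a ^ 5 * b ^ 1 + (-66033000) * a ^ 1 * b ^ 5 + (-2395197000) * a ^ 4 * b ^ 2 + (-5816907000) * a ^ 2 * b ^ 4)
      + A ^ 4 * B ^ 3 * ((-66033000) * a ^ 5 * b ^ 1 + (6003000) * a ^ 1 * b ^ 5 + (5816907000) * a ^ 4 * b ^ 2 + (2395197000) * a ^ 2 * b ^ 4)
      + A ^ 5 * B ^ 2 * ((277338600) * a ^ 5 * b ^ 1 + (-156600) * a ^ 1 * b ^ 5 + (-6980288400) * a ^ 4 * b ^ 2 + (-479039400) * a ^ 2 * b ^ 4)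
      + A ^ 6 * B ^ 1 * ((-462231000) * a ^ 5 * b ^ 1 + (3877938000) * a ^ 4 * b ^ 2 + (42021000) * a ^ 2 * b ^ 4)
      + A ^ 7 * B ^ 0 * ((2035800) * a ^ 6 * b ^ 0 + (250925400) * a ^ 5 * b ^ 1 + (-775587600) * a ^ 4 * b ^ 2 + (-1200600) * a ^ 2 * b ^ 4)

set_option linter.unusedSimpArgs false in
set_option maxHeartbeats 4000000 in
theorem lineT_coeff7 (a b : R) :
    famBc (kHab a b) (kTab a b) 7 = lineT_r7 a b (kal a b) (kbe a b) := by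
  simp only [famBc, kHab, kTab, lineT_r7, kal, kbe]
  ring

/-- coefficient of `t^18`. -/
def lineT_r18 (a b A B : R) : R :=
  A ^ 0 * B ^ 18 * ((86493225) * a ^ 0 * b ^ 6 + (-250925400) * a ^ 1 * b ^ 5 + (-1900950) * a ^ 2 * b ^ 4)
      + A ^ 1 * B ^ 17 * ((2822910750) * a ^ 1 * b ^ 5 + (114057000) * a ^ 2 * b ^ 4)
      + A ^ 2 * B ^ 16 * ((-10664329500) * a ^ 1 * b ^ 5 + (-2181340125) * a ^ 2 * b ^ 4)
      + A ^ 3 * B ^ 15 * ((17062927200) * a ^ 1 * b ^ 5 + (18614102400) * a ^ 2 * b ^ 4)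
      + A ^ 4 * B ^ 14 * ((-11633814000) * a ^ 1 * b ^ 5 + (-81436698000) * a ^ 2 * b ^ 4)
      + A ^ 5 * B ^ 13 * ((2714556600) * a ^ 1 * b ^ 5 + (195448075200) * a ^ 2 * b ^ 4)
      + A ^ 6 * B ^ 12 * ((-264669268500) * a ^ 2 * b ^ 4)
      + A ^ 7 * B ^ 11 * ((201652776000) * a ^ 2 * b ^ 4)
      + A ^ 8 * B ^ 10 * ((-1260329850) * a ^ 4 * b ^ 2 + (-83181770100) * a ^ 2 * b ^ 4)
      + A ^ 9 * B ^ 9 * ((16804398000) * a ^ 4 * b ^ 2 + (16804398000) * a ^ 2 * b ^ 4)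
      + A ^ 10 * B ^ 8 * ((-83181770100) * a ^ 4 * b ^ 2 + (-1260329850) * a ^ 2 * b ^ 4)
      + A ^ 11 * B ^ 7 * ((201652776000) * a ^ 4 * b ^ 2)
      + A ^ 12 * B ^ 6 * ((-264669268500) * a ^ 4 * b ^ 2)
      + A ^ 13 * B ^ 5 * ((-2714556600) * a ^ 5 * b ^ 1 + (195448075200) * a ^ 4 * b ^ 2)
      + A ^ 14 * B ^ 4 * ((11633814000) * a ^ 5 * b ^ 1 + (-81436698000) * a ^ 4 * b ^ 2)
      + A ^ 15 * B ^ 3 * ((-17062927200) * a ^ 5 * b ^ 1 + (18614102400) * a ^ 4 * b ^ 2)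
      + A ^ 16 * B ^ 2 * ((10664329500) * a ^ 5 * b ^ 1 + (-2181340125) * a ^ 4 * b ^ 2)
      + A ^ 17 * B ^ 1 * ((-2822910750) * a ^ 5 * b ^ 1 + (114057000) * a ^ 4 * b ^ 2)
      + A ^ 18 * B ^ 0 * ((86493225) * a ^ 6 * b ^ 0 + (250925400) * a ^ 5 * b ^ 1 + (-1900950) * a ^ 4 * b ^ 2)

set_option linter.unusedSimpArgs false in
set_option maxHeartbeats 4000000 in
theorem lineT_coeff18 (a b : R) :
    famBc (kHab a b) (kTab a b) 18 = lineT_r18 a b (kal a b) (kbe a b) := by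
  simp only [famBc, kHab, kTab, lineT_r18, kal, kbe]
  ring

/-- coefficient of `t^19`. -/
def lineT_r19 (a b A B : R) : R :=
  A ^ 0 * B ^ 19 * ((-54627300) * a ^ 0 * b ^ 6 + (92446200) * a ^ 1 * b ^ 5 + (200100) * a ^ 2 * b ^ 4)
      + A ^ 1 * B ^ 18 * ((-1254627000) * a ^ 1 * b ^ 5 + (-19009500) * a ^ 2 * b ^ 4)
      + A ^ 2 * B ^ 17 * ((5645821500) * a ^ 1 * b ^ 5 + (513256500) * a ^ 2 * b ^ 4)
      + A ^ 3 * B ^ 16 * ((-10664329500) * a ^ 1 * b ^ 5 + (-5816907000) * a ^ 2 * b ^ 4)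
      + A ^ 4 * B ^ 15 * ((8531463600) * a ^ 1 * b ^ 5 + (32574679200) * a ^ 2 * b ^ 4)
      + A ^ 5 * B ^ 14 * ((-2326762800) * a ^ 1 * b ^ 5 + (-97724037600) * a ^ 2 * b ^ 4)
      + A ^ 6 * B ^ 13 * ((162873396000) * a ^ 2 * b ^ 4)
      + A ^ 7 * B ^ 12 * ((-151239582000) * a ^ 2 * b ^ 4)
      + A ^ 8 * B ^ 11 * ((75619791000) * a ^ 2 * b ^ 4)
      + A ^ 9 * B ^ 10 * ((-1680439800) * a ^ 4 * b ^ 2 + (-18484837800) * a ^ 2 * b ^ 4)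
      + A ^ 10 * B ^ 9 * ((18484837800) * a ^ 4 * b ^ 2 + (1680439800) * a ^ 2 * b ^ 4)
      + A ^ 11 * B ^ 8 * ((-75619791000) * a ^ 4 * b ^ 2)
      + A ^ 12 * B ^ 7 * ((151239582000) * a ^ 4 * b ^ 2)
      + A ^ 13 * B ^ 6 * ((-162873396000) * a ^ 4 * b ^ 2)
      + A ^ 14 * B ^ 5 * ((-2326762800) * a ^ 5 * b ^ 1 + (97724037600) * a ^ 4 * b ^ 2)
      + A ^ 15 * B ^ 4 * ((8531463600) * a ^ 5 * b ^ 1 + (-32574679200) * a ^ 4 * b ^ 2)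
      + A ^ 16 * B ^ 3 * ((-10664329500) * a ^ 5 * b ^ 1 + (5816907000) * a ^ 4 * b ^ 2)
      + A ^ 17 * B ^ 2 * ((5645821500) * a ^ 5 * b ^ 1 + (-513256500) * a ^ 4 * b ^ 2)
      + A ^ 18 * B ^ 1 * ((-1254627000) * a ^ 5 * b ^ 1 + (19009500) * a ^ 4 * b ^ 2)
      + A ^ 19 * B ^ 0 * ((54627300) * a ^ 6 * b ^ 0 + (92446200) * a ^ 5 * b ^ 1 + (-200100) * a ^ 4 * b ^ 2)

set_option linter.unusedSimpArgs false in
set_option maxHeartbeats 4000000 in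
theorem lineT_coeff19 (a b : R) :
    famBc (kHab a b) (kTab a b) 19 = lineT_r19 a b (kal a b) (kbe a b) := by
  simp only [famBc, kHab, kTab, lineT_r19, kal, kbe]
  ring

/-- coefficient of `t^30`. -/
def lineT_r30 (a b A B : R) : R :=
  A ^ 0 * B ^ 30 * ((1) * a ^ 0 * b ^ 6)
      + A ^ 5 * B ^ 25 * ((522) * a ^ 1 * b ^ 5)
      + A ^ 10 * B ^ 20 * ((-10005) * a ^ 2 * b ^ 4)
      + A ^ 20 * B ^ 10 * ((-10005) * a ^ 4 * b ^ 2)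
      + A ^ 25 * B ^ 5 * ((-522) * a ^ 5 * b ^ 1)
      + A ^ 30 * B ^ 0 * ((1) * a ^ 6 * b ^ 0)

set_option linter.unusedSimpArgs false in
set_option maxHeartbeats 4000000 in
theorem lineT_coeff30 (a b : R) :
    famBc (kHab a b) (kTab a b) 30 = lineT_r30 a b (kal a b) (kbe a b) := by
  simp only [famBc, kHab, kTab, lineT_r30, kal, kbe]
  ring

end Fermat.Agent.S52
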